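import Fermat.Agent.Tau.Uniformisation
import Fermat.Agent.Tau.JInjective

/-!
# Density of multiples on the identity component of a real elliptic curve

A lattice with real invariants is stable under conjugation, so a real point has a multiple with a
real parameter `t`.  If the point has infinite order, `ℤ t + ℤ ω` is dense in the line, `ω` the
least real period, and `℘` takes every value beyond the largest real root on `(0, ω / 2]`.
-/

set_option autoImplicit false
set_option linter.style.haveILetI false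

noncomputable section

open Complex Filter Topology WeierstrassCurve
open scoped ComplexConjugate

namespace FA.RealPoints

variable (L : PeriodPair)

local notation "wp" => PeriodPair.weierstrassP L
local notation "wq" => PeriodPair.derivWeierstrassP L

/-- The conjugate periods. -/
def conjPair : PeriodPair where
  ω₁ := conj L.ω₁
  ω₂ := conj L.ω₂
  indep := LinearIndependent.pair_iff.mpr fun s t h =>
    LinearIndependent.pair_iff.mp L.indep s t (by
      simpa [Complex.real_smul] using congrArg conj h)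

theorem mem_conjPair {z : ℂ} : z ∈ (conjPair L).lattice ↔ conj z ∈ L.lattice := by
  simp only [PeriodPair.mem_lattice, conjPair]
  constructor <;> rintro ⟨m, n, h⟩ <;> refine ⟨m, n, ?_⟩
  · rw [← h]; simp
  · rw [← Complex.conj_conj z, ← h]; simp

theorem G_conjPair (n : ℕ) : (conjPair L).G n = conj (L.G n) := by
  let e : L.lattice ≃ (conjPair L).lattice :=
    { toFun := fun l => ⟨conj l.1, (mem_conjPair L).mpr (by simp)⟩
      invFun := fun l => ⟨conj l.1, (mem_conjPair L).mp l.2⟩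
      left_inv := fun l => by simp
      right_inv := fun l => by simp }
  rw [PeriodPair.G, PeriodPair.G, ← e.tsum_eq, Complex.conj_tsum]
  exact tsum_congr fun l => by simp [e, map_inv₀, map_pow]

variable {a b : ℝ} (h₂ : L.g₂ = a) (h₃ : L.g₃ = b)

include h₂ h₃ in
/-- A lattice with real invariants is stable under conjugation. -/
theorem conj_mem {z : ℂ} : conj z ∈ L.lattice ↔ z ∈ L.lattice := by
  rw [← mem_conjPair]
  have e : (conjPair L).lattice = L.lattice := by
    refine (FA.JInj.lattice_eq_iff _ _).mpr ⟨?_, ?_⟩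
    · have := congrArg conj h₂
      rw [conj_ofReal, ← h₂] at this
      rw [PeriodPair.g₂, G_conjPair, ← this, PeriodPair.g₂, map_mul, map_ofNat]
    · have := congrArg conj h₃
      rw [conj_ofReal, ← h₃] at this
      rw [PeriodPair.g₃, G_conjPair, ← this, PeriodPair.g₃, map_mul, map_ofNat]
  rw [e]

include h₂ h₃ in
/-- Conjugation of the lattice, as a permutation. -/
theorem wp_conj (z : ℂ) : wp (conj z) = conj (wp z) ∧ wq (conj z) = conj (wq z) := by
  let e : L.lattice ≃ L.lattice :=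
    { toFun := fun l => ⟨conj l.1, (conj_mem L h₂ h₃).mpr l.2⟩
      invFun := fun l => ⟨conj l.1, (conj_mem L h₂ h₃).mpr l.2⟩
      left_inv := fun l => by simp
      right_inv := fun l => by simp }
  constructor
  · rw [PeriodPair.weierstrassP, PeriodPair.weierstrassP, ← e.tsum_eq, Complex.conj_tsum]
    exact tsum_congr fun l => by simp [e]
  · rw [PeriodPair.derivWeierstrassP, PeriodPair.derivWeierstrassP, ← e.tsum_eq, map_neg,
      Complex.conj_tsum]
    exact congrArg Neg.neg (tsum_congr fun l => by simp [e, map_ofNat])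

include h₂ h₃ in
theorem wp_ofReal (s : ℝ) : ((wp s).re : ℂ) = wp s ∧ ((wq s).re : ℂ) = wq s := by
  have h := wp_conj L h₂ h₃ s
  rw [conj_ofReal] at h
  exact ⟨Complex.conj_eq_iff_re.mp h.1.symm, Complex.conj_eq_iff_re.mp h.2.symm⟩

include h₂ h₃ in
/-- **The least positive real period.** -/
theorem exists_real_period : ∃ ω : ℝ, 0 < ω ∧
    ∀ s : ℝ, (s : ℂ) ∈ L.lattice ↔ ∃ m : ℤ, s = m * ω := by
  set S : AddSubgroup ℝ := L.lattice.toAddSubgroup.comap Complex.ofRealHom.toAddMonoidHom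
  have hmem : ∀ s : ℝ, s ∈ S ↔ (s : ℂ) ∈ L.lattice := fun s => Iff.rfl
  have hne : ∃ s ∈ S, s ≠ 0 := by
    by_contra h
    push Not at h
    have hre : ∀ w ∈ L.lattice, w.re = 0 := fun w hw => by
      have hw' := h (2 * w.re) ((hmem _).mpr (by
        have h' := add_mem hw ((conj_mem L h₂ h₃).mpr hw)
        rwa [Complex.add_conj] at h'))
      linarith
    have h1 := hre _ L.ω₁_mem_lattice
    have h2 := hre _ L.ω₂_mem_lattice
    have hp := LinearIndependent.pair_iff.mp L.indep L.ω₂.im (-L.ω₁.im)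
      (Complex.ext (by simp [h1, h2]) (by simp; ring))
    have h3 : L.ω₁ = 0 := Complex.ext h1 (by simpa using hp.2)
    exact L.indep.ne_zero 0 h3
  rcases S.dense_or_cyclic with hd | ⟨c, hc⟩
  · exfalso
    have hS : IsClosed (S : Set ℝ) := L.isClosed_lattice.preimage Complex.continuous_ofReal
    have hall : ∀ s : ℝ, (s : ℂ) ∈ L.lattice := fun s => by
      have : s ∈ closure (S : Set ℝ) := hd s
      rwa [hS.closure_eq] at this
    have hcnt : (Set.range ((↑) : ℝ → ℂ)).Countable :=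
      ((Set.countable_range (fun l : L.lattice => (l : ℂ))).mono
        (by rintro _ ⟨s, rfl⟩; exact ⟨⟨_, hall s⟩, rfl⟩))
    exact Cardinal.not_countable_real
      (by simpa using hcnt.preimage Complex.ofReal_injective)
  · have hc' : ∀ s : ℝ, (s : ℂ) ∈ L.lattice ↔ ∃ m : ℤ, (m : ℝ) * c = s := fun s => by
      rw [← hmem, hc, AddSubgroup.mem_closure_singleton]
      simp [zsmul_eq_mul]
    have hc0 : c ≠ 0 := by
      rintro rfl
      obtain ⟨s, hs, hs0⟩ := hne
      obtain ⟨m, rfl⟩ := (hc' s).mp hs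
      simp at hs0
    refine ⟨|c|, abs_pos.mpr hc0, fun s => (hc' s).trans ⟨?_, ?_⟩⟩
    · rintro ⟨m, rfl⟩
      rcases abs_choice c with e | e <;> rw [e]
      · exact ⟨m, rfl⟩
      · exact ⟨-m, by push_cast; ring⟩
    · rintro ⟨m, rfl⟩
      rcases abs_choice c with e | e <;> rw [e]
      · exact ⟨m, rfl⟩
      · exact ⟨-m, by push_cast; ring⟩

include h₂ h₃ in
/-- Beyond the real roots every value with either sign of the derivative is taken on the line. -/
theorem exists_real_param {ω : ℝ} (hω : 0 < ω)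
    (hper : ∀ s : ℝ, (s : ℂ) ∈ L.lattice ↔ ∃ m : ℤ, s = m * ω) {x y : ℝ}
    (hy : y ^ 2 = 4 * x ^ 3 - a * x - b) (hx : ∀ t > x, 0 < 4 * t ^ 3 - a * t - b) :
    ∃ s : ℝ, (s : ℂ) ∉ L.lattice ∧ wp s = x ∧ wq s = y := by
  have hnot : ∀ s ∈ Set.Ioc (0 : ℝ) (ω / 2), (s : ℂ) ∉ L.lattice := by
    intro s hs h
    obtain ⟨m, rfl⟩ := (hper s).mp h
    have h1 : (0 : ℝ) < m := by nlinarith [hs.1]
    have h1' : (0 : ℤ) < m := by exact_mod_cast h1
    have h2 : (1 : ℝ) ≤ m := by exact_mod_cast h1'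
    nlinarith [hs.2]
  have hω2 : ((ω / 2 : ℝ) : ℂ) ∉ L.lattice := hnot _ ⟨by linarith, le_rfl⟩
  have hq0 : wq ((ω / 2 : ℝ) : ℂ) = 0 := by
    have h1 := L.derivWeierstrassP_add_coe ((-(ω / 2) : ℝ) : ℂ)
      ⟨(ω : ℂ), (hper ω).mpr ⟨1, by simp⟩⟩
    simp only [ofReal_neg, L.derivWeierstrassP_neg] at h1
    rw [show -((ω / 2 : ℝ) : ℂ) + (ω : ℂ) = ((ω / 2 : ℝ) : ℂ) by push_cast; ring] at h1
    exact CharZero.eq_neg_self_iff.mp h1
  let g : ℝ → ℝ := fun s => (wp s).re
  have hroot : g (ω / 2) ≤ x := by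
    by_contra h
    have h1 := L.derivWeierstrassP_sq _ hω2
    rw [hq0, ← (wp_ofReal L h₂ h₃ (ω / 2)).1, h₂, h₃] at h1
    have h2 := hx _ (not_le.mp h)
    have h3 : (0 : ℝ) = 4 * g (ω / 2) ^ 3 - a * g (ω / 2) - b := by
      apply Complex.ofReal_injective
      push_cast
      linear_combination h1
    linarith
  have hcont : ContinuousOn g (Set.Ioc 0 (ω / 2)) := fun s hs =>
    (Complex.continuous_re.continuousAt.comp ((L.analyticOnNhd_weierstrassP _
      (hnot s hs)).continuousAt.comp Complex.continuous_ofReal.continuousAt)).continuousWithinAt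
  -- a pole at the origin
  have hbig : ∃ s₀ ∈ Set.Ioc (0 : ℝ) (ω / 2), x ≤ g s₀ := by
    let F : ℂ → ℂ := fun z => (z - 0) ^ 2 * L.weierstrassPExcept 0 z + 1 - (z - 0) ^ 2 / 0 ^ 2
    have hF : Tendsto (fun s : ℝ => (F s).re) (𝓝 0) (𝓝 1) := by
      have hA : AnalyticAt ℂ (L.weierstrassPExcept 0) 0 :=
        L.analyticOnNhd_weierstrassPExcept 0 0 (by simp)
      have hAc : ContinuousAt F 0 := by
        have : F = fun z => (z - 0) ^ 2 * L.weierstrassPExcept 0 z + 1 := by
          funext z; simp [F]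
        rw [this]
        have := hA.continuousAt
        fun_prop
      have h1 : ContinuousAt (fun s : ℝ => (F s).re) 0 :=
        Complex.continuous_re.continuousAt.comp
          (ContinuousAt.comp (g := F) (by rw [ofReal_zero]; exact hAc)
            Complex.continuous_ofReal.continuousAt)
      simpa [F] using h1.tendsto
    obtain ⟨δ, hδ, hball⟩ :=
      Metric.eventually_nhds_iff.mp (hF.eventually (eventually_ge_nhds one_half_lt_one))
    set s₀ := min (min (δ / 2) (ω / 2)) (min 1 (1 / (2 * (|x| + 1))))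
    have hs0 : 0 < s₀ := lt_min (lt_min (by linarith) (by linarith))
      (lt_min one_pos (by positivity))
    have hs1 : s₀ ≤ δ / 2 := (min_le_left _ _).trans (min_le_left _ _)
    have hs2 : s₀ ≤ ω / 2 := (min_le_left _ _).trans (min_le_right _ _)
    have hs3 : s₀ ≤ 1 := (min_le_right _ _).trans (min_le_left _ _)
    have hs4 : s₀ ≤ 1 / (2 * (|x| + 1)) := (min_le_right _ _).trans (min_le_right _ _)
    refine ⟨s₀, ⟨hs0, hs2⟩, ?_⟩
    have hval : (1 : ℝ) / 2 ≤ (F s₀).re := hball (by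
      rw [Real.dist_eq, sub_zero, abs_of_pos hs0]; linarith)
    have heq : s₀ ^ 2 * g s₀ = (F s₀).re := by
      have h := L.ite_eq_one_sub_sq_mul_weierstrassP 0 (zero_mem _) (s₀ : ℂ)
      rw [if_neg (by exact_mod_cast hs0.ne')] at h
      rw [show F s₀ = ((s₀ : ℂ) - 0) ^ 2 * wp s₀ from h.symm, sub_zero, ← ofReal_pow,
        re_ofReal_mul]
    have h5 : s₀ * (2 * (|x| + 1)) ≤ 1 := by rwa [le_div_iff₀ (by positivity)] at hs4
    have h6 : s₀ ^ 2 ≤ s₀ := by nlinarith
    by_contra hlt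
    nlinarith [le_abs_self x, abs_nonneg x, sq_pos_of_pos hs0]
  obtain ⟨s₀, hs₀, hg⟩ := hbig
  obtain ⟨s, hs, hsx⟩ := intermediate_value_Icc' hs₀.2
    (hcont.mono fun t ht => ⟨hs₀.1.trans_le ht.1, ht.2⟩) ⟨hroot, hg⟩
  have hs' : (s : ℂ) ∉ L.lattice := hnot s ⟨hs₀.1.trans_le hs.1, hs.2⟩
  have hwp : wp s = x := by rw [← (wp_ofReal L h₂ h₃ s).1]; exact congrArg _ hsx
  have hsq : wq s ^ 2 = (y : ℂ) ^ 2 := by
    rw [L.derivWeierstrassP_sq _ hs', hwp, h₂, h₃, ← ofReal_pow y, hy]
    push_cast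
    ring
  rcases sq_eq_sq_iff_eq_or_eq_neg.mp hsq with e | e
  · exact ⟨s, hs', hwp, e⟩
  · refine ⟨-s, ?_, ?_, ?_⟩
    · rw [ofReal_neg]; exact fun h => hs' (by simpa using neg_mem h)
    · rw [ofReal_neg, L.weierstrassP_neg, hwp]
    · rw [ofReal_neg, L.derivWeierstrassP_neg, e, neg_neg]

/-- Transport along an equality of curves. -/
def castPoint {F : Type*} [Field F] [DecidableEq F] {W W' : WeierstrassCurve F} (h : W = W') :
    W.toAffine.Point →+ W'.toAffine.Point := h ▸ AddMonoidHom.id _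

theorem castPoint_some {F : Type*} [Field F] [DecidableEq F] {W W' : WeierstrassCurve F}
    (h : W = W') {x y : F} (hn : W.toAffine.Nonsingular x y) :
    castPoint h (.some x y hn) = .some x y (h ▸ hn) := by
  subst h; rfl

theorem castPoint_injective {F : Type*} [Field F] [DecidableEq F] {W W' : WeierstrassCurve F}
    (h : W = W') : Function.Injective (castPoint h) := by
  subst h; exact fun _ _ e => e

/-- The short Weierstrass curve over the reals. -/
abbrev shortCurve (A B : ℝ) : WeierstrassCurve ℝ := ⟨0, 0, 0, A, B⟩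

/-- A lattice with real invariants whose curve contains the real points. -/
theorem exists_lattice_hom (A B : ℝ) [(shortCurve A B).IsElliptic] :
    ∃ (L : PeriodPair)
      (ι : (shortCurve A B).toAffine.Point →+ (FA.Mazur.Wp.latCurve L).toAffine.Point),
      L.g₂ = ((-4 * A : ℝ) : ℂ) ∧ L.g₃ = ((-4 * B : ℝ) : ℂ) ∧ Function.Injective ι ∧
        ∀ x' y' h, ∃ h', ι (.some x' y' h) = .some (x' : ℂ) (y' : ℂ) h' := by
  have hd : (-4 * (A : ℂ)) ^ 3 - 27 * (-4 * (B : ℂ)) ^ 2 ≠ 0 := by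
    intro h
    refine (shortCurve A B).isUnit_Δ.ne_zero (Complex.ofReal_injective ?_)
    simp only [WeierstrassCurve.Δ, b₂, b₄, b₆, b₈, ofReal_zero]
    push_cast
    linear_combination h
  obtain ⟨L, h2, h3⟩ := FA.JInj.exists_g₂_g₃ hd
  have h₂ : L.g₂ = ((-4 * A : ℝ) : ℂ) := by rw [h2]; push_cast; rfl
  have h₃ : L.g₃ = ((-4 * B : ℝ) : ℂ) := by rw [h3]; push_cast; rfl
  have hW : ((shortCurve A B)⁄ℂ) = FA.Mazur.Wp.latCurve L := by
    ext <;> simp [FA.Mazur.Wp.latCurve, h2, h3]
  let ι : (shortCurve A B).toAffine.Point →+ (FA.Mazur.Wp.latCurve L).toAffine.Point :=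
    (castPoint hW).comp (Affine.Point.map (W' := (shortCurve A B).toAffine) (S := ℝ) (F := ℝ)
      (K := ℂ) (Algebra.ofId ℝ ℂ))
  have hιinj : Function.Injective ι := (castPoint_injective hW).comp
    (Affine.Point.map_injective (W' := (shortCurve A B).toAffine) (R := ℝ) (S := ℝ) (F := ℝ)
      (K := ℂ) (Algebra.ofId ℝ ℂ))
  have hιsome : ∀ x' y' (h : (shortCurve A B).toAffine.Nonsingular x' y'),
      ∃ h', ι (.some x' y' h) = .some (x' : ℂ) (y' : ℂ) h' := fun x' y' h =>
    ⟨_, castPoint_some hW _⟩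
  exact ⟨L, ι, h₂, h₃, hιinj, hιsome⟩

/-- A parameter of a real point and its conjugate give the same point. -/
theorem unif_conj_param {A B : ℝ} [(shortCurve A B).IsElliptic] {L : PeriodPair}
    {ι : (shortCurve A B).toAffine.Point →+ (FA.Mazur.Wp.latCurve L).toAffine.Point}
    (h₂ : L.g₂ = ((-4 * A : ℝ) : ℂ)) (h₃ : L.g₃ = ((-4 * B : ℝ) : ℂ))
    (hιsome : ∀ x' y' h, ∃ h', ι (.some x' y' h) = .some (x' : ℂ) (y' : ℂ) h')
    {P : (shortCurve A B).toAffine.Point} {z : ℂ} (hz : FA.Mazur.Wp.unif L z = ι P) :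
    FA.Mazur.Wp.unif L (conj z) = FA.Mazur.Wp.unif L z := by
  by_cases hzl : z ∈ L.lattice
  · rw [FA.Mazur.Wp.unif_of_mem L hzl,
      FA.Mazur.Wp.unif_of_mem L ((conj_mem L h₂ h₃).mpr hzl)]
  obtain ⟨x', y', h, hPe⟩ : ∃ x' y' h, P = Affine.Point.some x' y' h := by
    cases P with
    | zero => exact absurd ((FA.Mazur.Wp.unif_eq_zero_iff L).mp (hz.trans (map_zero ι))) hzl
    | some x' y' h => exact ⟨x', y', h, rfl⟩
  obtain ⟨h', e⟩ := hιsome x' y' h
  rw [hPe, e, FA.Mazur.Wp.unif_of_notMem L hzl, Affine.Point.some.injEq] at hz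
  rw [FA.Mazur.Wp.unif_of_notMem L hzl,
    FA.Mazur.Wp.unif_of_notMem L (fun h => hzl ((conj_mem L h₂ h₃).mp h))]
  have hq : L.derivWeierstrassP z = ((2 * y' : ℝ) : ℂ) := by
    push_cast; linear_combination 2 * hz.2
  simp only [(wp_conj L h₂ h₃ z).1, (wp_conj L h₂ h₃ z).2, hz.1, conj_ofReal, hq]

/-- **Density of the multiples of a point of infinite order.** -/
theorem dense_multiples {A B : ℝ}
    [(shortCurve A B).IsElliptic] {P : (shortCurve A B).toAffine.Point} (hP : ¬IsOfFinAddOrder P)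
    {x y : ℝ} (hy : y ^ 2 = x ^ 3 + A * x + B) (hx : ∀ t > x, 0 < t ^ 3 + A * t + B)
    {ε : ℝ} (hε : 0 < ε) :
    {n : ℤ | ∃ x' y' h, n • P = .some x' y' h ∧ |x' - x| < ε ∧ |y' - y| < ε}.Infinite := by
  obtain ⟨L, ι, h₂, h₃, hιinj, hιsome⟩ := exists_lattice_hom A B
  obtain ⟨ω, hω, hper⟩ := exists_real_period L h₂ h₃
  obtain ⟨z, hz⟩ := FA.ClassNumberOne.unif_surjective L (ι P)
  -- the doubled point has a real parameter
  obtain ⟨t, ht⟩ : ∃ t : ℝ, FA.Mazur.Wp.unif L t = 2 • ι P := by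
    refine ⟨2 * z.re, ?_⟩
    have hconj : FA.Mazur.Wp.unif L (conj z) = FA.Mazur.Wp.unif L z :=
      unif_conj_param h₂ h₃ hιsome hz
    have e : ((2 * z.re : ℝ) : ℂ) = z + conj z := (Complex.add_conj z).symm
    rw [e, FA.Mazur.Wp.unif_add, hconj, two_nsmul, ← hz]
  have hnsmul : ∀ n : ℤ, FA.Mazur.Wp.unif L ((n * t : ℝ) : ℂ) = ι ((2 * n) • P) := fun n => by
    rw [← FA.Mazur.Wp.unifHom_apply, ofReal_mul, ofReal_intCast, ← zsmul_eq_mul, map_zsmul,
      FA.Mazur.Wp.unifHom_apply, ht, map_zsmul, mul_comm, mul_zsmul]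
    norm_num [two_zsmul, two_nsmul]
  -- the group generated by the parameter and the period is dense
  have hdense : Dense ((AddSubgroup.closure {t, ω} : AddSubgroup ℝ) : Set ℝ) := by
    refine (AddSubgroup.dense_or_cyclic _).resolve_right ?_
    rintro ⟨c, hc⟩
    have hmem : ∀ v ∈ ({t, ω} : Set ℝ), ∃ k : ℤ, (k : ℝ) * c = v := fun v hv => by
      have h := AddSubgroup.subset_closure (G := ℝ) hv
      rw [hc] at h
      simpa [zsmul_eq_mul] using AddSubgroup.mem_closure_singleton.mp h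
    obtain ⟨p, hp⟩ := hmem t (by simp)
    obtain ⟨q, hq⟩ := hmem ω (by simp)
    have hq0 : q ≠ 0 := by
      rintro rfl
      simp at hq
      exact hω.ne hq
    have h0 : FA.Mazur.Wp.unif L ((q * t : ℝ) : ℂ) = 0 :=
      FA.Mazur.Wp.unif_of_mem L ((hper _).mpr ⟨p, by rw [← hp, ← hq]; ring⟩)
    rw [hnsmul, map_eq_zero_iff ι hιinj] at h0
    exact hP (isOfFinAddOrder_iff_zsmul_eq_zero.mpr ⟨2 * q, by omega, h0⟩)
  -- a real parameter of the target
  obtain ⟨s, hs, hsx, hsy⟩ := exists_real_param L h₂ h₃ hω hper (x := x) (y := 2 * y)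
    (by linear_combination 4 * hy) (fun u hu => by have := hx u hu; linarith)
  have hev : ∀ᶠ u : ℝ in 𝓝 s, (u : ℂ) ∉ L.lattice ∧ |(L.weierstrassP u).re - x| < ε ∧
      |(L.derivWeierstrassP u).re / 2 - y| < ε := by
    have c0 := Complex.continuous_ofReal.continuousAt (x := s)
    have c1 : ContinuousAt (fun u : ℝ => (L.weierstrassP u).re) s :=
      Complex.continuous_re.continuousAt.comp
        ((L.analyticOnNhd_weierstrassP _ hs).continuousAt.comp c0)
    have c2 : ContinuousAt (fun u : ℝ => (L.derivWeierstrassP u).re / 2) s :=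
      (Complex.continuous_re.continuousAt.comp
        ((L.analyticOnNhd_derivWeierstrassP _ hs).continuousAt.comp c0)).div_const 2
    refine ((c0.eventually (L.isClosed_lattice.isOpen_compl.mem_nhds hs)).and
      ((Metric.tendsto_nhds.mp c1.tendsto ε hε).and
        (Metric.tendsto_nhds.mp c2.tendsto ε hε))).mono fun u hu => ⟨hu.1, ?_, ?_⟩
    · simpa [Real.dist_eq, hsx] using hu.2.1
    · simpa [Real.dist_eq, hsy] using hu.2.2
  obtain ⟨δ, hδ, hball⟩ := Metric.eventually_nhds_iff.mp hev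
  set r := min δ (ω / 2)
  have hr : 0 < r := lt_min hδ (by linarith)
  set N : Set ℤ := {n | ∃ m : ℤ, |n * t + m * ω - s| < r}
  have hN : N.Infinite := by
    intro hfin
    choose! m hm using fun (n : ℤ) (hn : n ∈ N) => hn
    have hsub : Metric.ball s r ∩ (AddSubgroup.closure {t, ω} : AddSubgroup ℝ) ⊆
        (fun n : ℤ => (n : ℝ) * t + m n * ω) '' N := by
      rintro v ⟨hv, hv'⟩
      obtain ⟨n, k, rfl⟩ := AddSubgroup.mem_closure_pair.mp hv'
      simp only [Metric.mem_ball, Real.dist_eq, zsmul_eq_mul] at hv ⊢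
      refine ⟨n, ⟨k, hv⟩, ?_⟩
      have h1 := abs_lt.mp hv
      have h2 := abs_lt.mp (hm n ⟨k, hv⟩)
      have h3 : ((m n - k : ℤ) : ℝ) * ω < 1 * ω ∧ -1 * ω < ((m n - k : ℤ) : ℝ) * ω := by
        push_cast
        constructor <;> linarith [min_le_right δ (ω / 2)]
      have h4 : m n - k < 1 := by exact_mod_cast lt_of_mul_lt_mul_right h3.1 hω.le
      have h5 : -1 < m n - k := by exact_mod_cast lt_of_mul_lt_mul_right h3.2 hω.le
      show (n : ℝ) * t + m n * ω = n * t + k * ω
      rw [show m n = k by omega]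
    have hcl := hdense.open_subset_closure_inter (Metric.isOpen_ball (x := s) (ε := r))
    rw [((hfin.image _).subset hsub).isClosed.closure_eq] at hcl
    exact ((Set.Ioo_infinite (show s - r < s + r by linarith)).mono
      (by rw [← Real.ball_eq_Ioo]; exact hcl)) ((hfin.image _).subset hsub)
  refine (hN.image (mul_right_injective₀ (two_ne_zero (α := ℤ))).injOn).mono ?_
  rintro _ ⟨n, ⟨m, hm⟩, rfl⟩
  set u : ℝ := n * t + m * ω
  obtain ⟨hu, hux, huy⟩ :=
    hball (y := u) (by rw [Real.dist_eq]; exact hm.trans_le (min_le_left _ _))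
  have hval : FA.Mazur.Wp.unif L u = ι ((2 * n) • P) := by
    rw [← hnsmul, show (u : ℂ) = ((n * t : ℝ) : ℂ) + ((m * ω : ℝ) : ℂ) by simp [u],
      FA.Mazur.Wp.unif_add_mem L ((hper _).mpr ⟨m, rfl⟩)]
  rw [FA.Mazur.Wp.unif_of_notMem L hu] at hval
  show ∃ x' y' h, (2 * n) • P = .some x' y' h ∧ |x' - x| < ε ∧ |y' - y| < ε
  generalize (2 * n) • P = Q at hval
  rcases Q with _ | ⟨x', y', h⟩
  · exact absurd (hval.trans ι.map_zero) (Affine.Point.some_ne_zero _)
  obtain ⟨h', e⟩ := hιsome x' y' h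
  rw [e, Affine.Point.some.injEq] at hval
  refine ⟨x', y', h, rfl, ?_, ?_⟩
  · rwa [hval.1, ofReal_re] at hux
  · rwa [show (L.derivWeierstrassP u).re / 2 = y' by
      rw [← Complex.div_ofNat_re, hval.2, ofReal_re]] at huy

end FA.RealPoints

end
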