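import Fermat.Agent.RealPoints.RealPeriod
import Mathlib.Analysis.SpecialFunctions.Gamma.Beta
import Mathlib.Analysis.SpecialFunctions.Gamma.BohrMollerup
import Mathlib.Probability.Distributions.Beta

/-!
# Two periods as values of the Gamma function

The substitution `x = t ^ (-1/2)`, respectively `x = t ^ (-1/3)`, turns the complete integrals of
`y² = x³ - x` and `y² = x³ - 1` into Beta integrals.
-/

set_option autoImplicit false
set_option linter.style.haveILetI false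

noncomputable section

open MeasureTheory Set
open scoped Real

namespace FA.RealPoints

/-- The real Beta integral. -/
theorem integral_beta {α β : ℝ} (hα : 0 < α) (hβ : 0 < β) :
    ∫ t in Ioo (0 : ℝ) 1, t ^ (α - 1) * (1 - t) ^ (β - 1) =
      Real.Gamma α * Real.Gamma β / Real.Gamma (α + β) := by
  rw [← ProbabilityTheory.beta, ProbabilityTheory.beta_eq_betaIntegralReal α β hα hβ,
    Complex.betaIntegral, intervalIntegral.integral_of_le (by norm_num),
    ← integral_Ioc_eq_integral_Ioo, ← RCLike.re_to_complex, ← integral_re]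
  · refine setIntegral_congr_fun measurableSet_Ioc fun x ⟨hx1, hx2⟩ => ?_
    norm_cast
    rw [← Complex.ofReal_cpow, ← Complex.ofReal_cpow, RCLike.re_to_complex, Complex.re_mul_ofReal,
      Complex.ofReal_re]
    all_goals linarith
  · have h := Complex.betaIntegral_convergent (u := α) (v := β) (by simpa) (by simpa)
    rwa [intervalIntegrable_iff_integrableOn_Ioc_of_le (by simp)] at h

/-- The substitution `x = t ^ (-p)`. -/
theorem integral_Ioi_one_substitution (g : ℝ → ℝ) {p : ℝ} (hp : 0 < p) :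
    ∫ x in Ioi (1 : ℝ), g x = ∫ t in Ioo (0 : ℝ) 1, p * t ^ (-p - 1) * g (t ^ (-p)) := by
  have hder : ∀ t ∈ Ioo (0 : ℝ) 1,
      HasDerivWithinAt (fun t : ℝ => t ^ (-p)) (-p * t ^ (-p - 1)) (Ioo 0 1) t :=
    fun t ht => (Real.hasDerivAt_rpow_const (Or.inl ht.1.ne')).hasDerivWithinAt
  have hinj : InjOn (fun t : ℝ => t ^ (-p)) (Ioo 0 1) := fun s hs t ht h => by
    have := congrArg (fun x : ℝ => x ^ (-p)⁻¹) h
    simpa only [← Real.rpow_mul hs.1.le, ← Real.rpow_mul ht.1.le,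
      mul_inv_cancel₀ (neg_ne_zero.mpr hp.ne'), Real.rpow_one] using this
  have himg : (fun t : ℝ => t ^ (-p)) '' Ioo 0 1 = Ioi 1 := by
    refine Subset.antisymm ?_ fun x hx => ?_
    · rintro _ ⟨t, ht, rfl⟩
      exact Real.one_lt_rpow_of_pos_of_lt_one_of_neg ht.1 ht.2 (neg_neg_of_pos hp)
    · have hx0 : (0 : ℝ) < x := one_pos.trans hx
      refine ⟨x ^ (-p)⁻¹, ⟨Real.rpow_pos_of_pos hx0 _, ?_⟩, ?_⟩
      · exact Real.rpow_lt_one_of_one_lt_of_neg hx (inv_lt_zero.mpr (neg_neg_of_pos hp))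
      · show (x ^ (-p)⁻¹) ^ (-p) = x
        rw [← Real.rpow_mul hx0.le, inv_mul_cancel₀ (neg_ne_zero.mpr hp.ne'), Real.rpow_one]
  have h := integral_image_eq_integral_abs_deriv_smul measurableSet_Ioo hder hinj g
  rw [himg] at h
  rw [h]
  refine setIntegral_congr_fun measurableSet_Ioo fun t ht => ?_
  rw [smul_eq_mul, abs_of_neg (by
    have := Real.rpow_pos_of_pos ht.1 (-p - 1)
    nlinarith)]
  ring

/-- **The lemniscatic period.** -/
theorem integral_lemniscatic :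
    ∫ x in Ioi (1 : ℝ), (√(x ^ 3 - x))⁻¹ = Real.Gamma (1 / 4) ^ 2 / (2 * √(2 * π)) := by
  rw [integral_Ioi_one_substitution _ (show (0 : ℝ) < 1 / 2 by norm_num),
    setIntegral_congr_fun (g := fun t => (1 / 2 : ℝ) *
      (t ^ ((1 / 4 : ℝ) - 1) * (1 - t) ^ ((1 / 2 : ℝ) - 1))) measurableSet_Ioo fun t ht => ?_,
    integral_const_mul, integral_beta (by norm_num) (by norm_num), Real.Gamma_one_half_eq]
  · have h1 := Real.Gamma_mul_Gamma_one_sub (1 / 4)
    rw [show π * (1 / 4) = π / 4 by ring, Real.sin_pi_div_four,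
      show (1 : ℝ) - 1 / 4 = 3 / 4 by norm_num] at h1
    rw [show (1 / 4 : ℝ) + 1 / 2 = 3 / 4 by norm_num]
    have hg := Real.Gamma_pos_of_pos (show (0 : ℝ) < 1 / 4 by norm_num)
    have hg' := Real.Gamma_pos_of_pos (show (0 : ℝ) < 3 / 4 by norm_num)
    have hπ := Real.sqrt_pos.mpr Real.pi_pos
    have h2 : √(2 : ℝ) ^ 2 = 2 := Real.sq_sqrt zero_le_two
    have hπ2 : √π ^ 2 = π := Real.sq_sqrt Real.pi_pos.le
    rw [Real.sqrt_mul zero_le_two]
    field_simp at h1 ⊢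
    linear_combination √2 * hπ2 - (√2 / 2) * h1 +
      (Real.Gamma (1 / 4) * Real.Gamma (3 / 4) / 2) * h2
  · obtain ⟨ht0, ht1⟩ := ht
    have e : (t ^ (-(1 / 2 : ℝ))) ^ 3 - t ^ (-(1 / 2 : ℝ)) =
        t ^ (-(3 / 2) : ℝ) * (1 - t) := by
      rw [← Real.rpow_natCast (t ^ (-(1 / 2 : ℝ))) 3, ← Real.rpow_mul ht0.le, mul_sub, mul_one,
        ← Real.rpow_add_one ht0.ne']
      norm_num
    rw [e, Real.sqrt_eq_rpow, Real.mul_rpow (Real.rpow_nonneg ht0.le _) (by linarith),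
      ← Real.rpow_mul ht0.le, mul_inv, ← Real.rpow_neg ht0.le, ← Real.rpow_neg (by linarith),
      mul_assoc, ← mul_assoc (t ^ (-(1 / 2 : ℝ) - 1)), ← Real.rpow_add ht0]
    norm_num

/-- **The equianharmonic period.** -/
theorem integral_equianharmonic :
    ∫ x in Ioi (1 : ℝ), (√(x ^ 3 - 1))⁻¹ =
      Real.Gamma (1 / 3) ^ 3 / ((2 : ℝ) ^ (4 / 3 : ℝ) * π) := by
  rw [integral_Ioi_one_substitution _ (show (0 : ℝ) < 1 / 3 by norm_num),
    setIntegral_congr_fun (g := fun t => (1 / 3 : ℝ) *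
      (t ^ ((1 / 6 : ℝ) - 1) * (1 - t) ^ ((1 / 2 : ℝ) - 1))) measurableSet_Ioo fun t ht => ?_,
    integral_const_mul, integral_beta (by norm_num) (by norm_num), Real.Gamma_one_half_eq]
  · have h1 := Real.Gamma_mul_Gamma_one_sub (1 / 3)
    rw [show π * (1 / 3) = π / 3 by ring, Real.sin_pi_div_three,
      show (1 : ℝ) - 1 / 3 = 2 / 3 by norm_num] at h1
    have h2 := Real.Gamma_mul_Gamma_add_half (1 / 6)
    rw [show (1 / 6 : ℝ) + 1 / 2 = 2 / 3 by norm_num,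
      show 2 * (1 / 6 : ℝ) = 1 / 3 by norm_num,
      show (1 : ℝ) - 1 / 3 = 2 / 3 by norm_num] at h2
    rw [show (1 / 6 : ℝ) + 1 / 2 = 2 / 3 by norm_num]
    have hg3 := Real.Gamma_pos_of_pos (show (0 : ℝ) < 1 / 3 by norm_num)
    have hg23 := Real.Gamma_pos_of_pos (show (0 : ℝ) < 2 / 3 by norm_num)
    have hπ : √π ^ 2 = π := Real.sq_sqrt Real.pi_pos.le
    have h3 : √(3 : ℝ) ^ 2 = 3 := Real.sq_sqrt (by norm_num)
    have h4 : (2 : ℝ) ^ (2 / 3 : ℝ) * (2 : ℝ) ^ (4 / 3 : ℝ) = 4 := by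
      rw [← Real.rpow_add two_pos]
      norm_num
    have h43 := Real.rpow_pos_of_pos two_pos (4 / 3 : ℝ)
    have hG6 : Real.Gamma (1 / 6) =
        Real.Gamma (1 / 3) * (2 : ℝ) ^ (2 / 3 : ℝ) * √π / Real.Gamma (2 / 3) := by
      rw [eq_div_iff hg23.ne']; exact h2
    have hG23 : Real.Gamma (2 / 3) = 2 * π / (√3 * Real.Gamma (1 / 3)) := by
      rw [eq_div_iff (mul_pos (Real.sqrt_pos.mpr three_pos) hg3).ne']
      field_simp at h1
      linear_combination h1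
    rw [hG6, hG23]
    field_simp
    rw [hπ, h3]
    linear_combination 3 * π * h4
  · obtain ⟨ht0, ht1⟩ := ht
    have e : (t ^ (-(1 / 3 : ℝ))) ^ 3 - 1 = t ^ (-1 : ℝ) * (1 - t) := by
      rw [← Real.rpow_natCast (t ^ (-(1 / 3 : ℝ))) 3, ← Real.rpow_mul ht0.le, mul_sub, mul_one,
        ← Real.rpow_add_one ht0.ne']
      norm_num
    rw [e, Real.sqrt_eq_rpow, Real.mul_rpow (Real.rpow_nonneg ht0.le _) (by linarith),
      ← Real.rpow_mul ht0.le, mul_inv, ← Real.rpow_neg ht0.le, ← Real.rpow_neg (by linarith),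
      mul_assoc, ← mul_assoc (t ^ (-(1 / 3 : ℝ) - 1)), ← Real.rpow_add ht0]
    norm_num

/-- A lattice with `g₃ = 0` is stable under multiplication by `i`. -/
theorem I_mul_mem (L : PeriodPair) (h₃ : L.g₃ = 0) {z : ℂ} (hz : z ∈ L.lattice) :
    Complex.I * z ∈ L.lattice := by
  have h : (FA.JInj.scalePair L Complex.I Complex.I_ne_zero).lattice = L.lattice :=
    (FA.JInj.lattice_eq_iff _ _).mpr
      ⟨by rw [FA.JInj.g₂_scalePair, Complex.I_pow_four, inv_one, one_mul],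
        by rw [FA.JInj.g₃_scalePair, h₃, mul_zero]⟩
  rw [← h, FA.JInj.mem_scalePair]
  exact ⟨z, hz, rfl⟩

/-- There `℘(i z) = - ℘(z)`. -/
theorem wp_I_mul (L : PeriodPair) (h₃ : L.g₃ = 0) (z : ℂ) :
    L.weierstrassP (Complex.I * z) = -L.weierstrassP z := by
  have h4 : ∀ {w : ℂ}, w ∈ L.lattice → -(Complex.I * w) ∈ L.lattice := fun hw =>
    neg_mem (I_mul_mem L h₃ hw)
  let e : L.lattice ≃ L.lattice :=
    { toFun := fun l => ⟨Complex.I * l.1, I_mul_mem L h₃ l.2⟩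
      invFun := fun l => ⟨-(Complex.I * l.1), h4 l.2⟩
      left_inv := fun l => Subtype.ext (by simp [← mul_assoc, Complex.I_mul_I])
      right_inv := fun l => Subtype.ext (by simp [← mul_assoc, Complex.I_mul_I]) }
  rw [PeriodPair.weierstrassP, PeriodPair.weierstrassP, ← e.tsum_eq, ← tsum_neg]
  refine tsum_congr fun l => ?_
  show 1 / (Complex.I * z - Complex.I * l.1) ^ 2 - 1 / (Complex.I * l.1) ^ 2 = _
  rw [← mul_sub, mul_pow, mul_pow, Complex.I_sq, neg_one_mul, neg_one_mul, div_neg, div_neg]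
  ring

/-- The square lattice with real period `ω`. -/
theorem mem_lattice_square (L : PeriodPair) {g ω e : ℝ} (h₂ : L.g₂ = g) (h₃ : L.g₃ = 0)
    (hω : 0 < ω) (hper : ∀ s : ℝ, (s : ℂ) ∈ L.lattice ↔ ∃ m : ℤ, s = m * ω) (he0 : 0 < e)
    (he : 4 * e ^ 3 - g * e = 0) (hbeyond : ∀ t > e, 0 < 4 * t ^ 3 - g * t) (z : ℂ) :
    z ∈ L.lattice ↔ ∃ p : ℤ × ℤ, z = (ω : ℂ) * ((p.1 : ℂ) + (p.2 : ℂ) * Complex.I) := by
  have h₃' : L.g₃ = ((0 : ℝ) : ℂ) := by rw [h₃, Complex.ofReal_zero]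
  have hωl : (ω : ℂ) ∈ L.lattice := (hper ω).mpr ⟨1, by simp⟩
  have hgen : ∀ m n : ℤ, (ω : ℂ) * ((m : ℂ) + (n : ℂ) * Complex.I) ∈ L.lattice := fun m n => by
    have h1 := L.lattice.smul_mem m hωl
    have h2 := L.lattice.smul_mem n (I_mul_mem L h₃ hωl)
    rw [zsmul_eq_mul] at h1 h2
    have := add_mem h1 h2
    rwa [show (m : ℂ) * (ω : ℂ) + (n : ℂ) * (Complex.I * ω) =
      (ω : ℂ) * ((m : ℂ) + (n : ℂ) * Complex.I) by ring] at this
  refine ⟨fun hz => ?_, ?_⟩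
  swap
  · rintro ⟨p, rfl⟩; exact hgen p.1 p.2
  have hre : ∀ {w : ℂ}, w ∈ L.lattice → ∃ j : ℤ, 2 * w.re = j * ω := fun {w} hw => by
    have h' := add_mem hw ((conj_mem L h₂ h₃').mpr hw)
    rw [Complex.add_conj] at h'
    exact (hper _).mp h'
  obtain ⟨j, hj⟩ := hre hz
  obtain ⟨k, hk⟩ := hre (neg_mem (I_mul_mem L h₃ hz))
  simp only [Complex.neg_re, Complex.I_mul_re, neg_neg] at hk
  obtain ⟨j', a, ha, rfl⟩ : ∃ j' a : ℤ, (a = 0 ∨ a = 1) ∧ j = 2 * j' + a :=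
    ⟨j / 2, j % 2, by omega, by omega⟩
  obtain ⟨k', b, hb, rfl⟩ : ∃ k' b : ℤ, (b = 0 ∨ b = 1) ∧ k = 2 * k' + b :=
    ⟨k / 2, k % 2, by omega, by omega⟩
  have hz' := sub_mem hz (hgen j' k')
  have ez : z - (ω : ℂ) * ((j' : ℂ) + (k' : ℂ) * Complex.I) =
      ((a * ω / 2 : ℝ) : ℂ) + ((b * ω / 2 : ℝ) : ℂ) * Complex.I := by
    push_cast at hj hk
    apply Complex.ext <;> simp <;> linarith
  rw [ez] at hz'
  have hhalf : ((ω / 2 : ℝ) : ℂ) ∉ L.lattice :=
    notMem_lattice_of_Ioo L hω hper ⟨by linarith, by linarith⟩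
  rcases ha with rfl | rfl <;> rcases hb with rfl | rfl
  · refine ⟨(j', k'), sub_eq_zero.mp ?_⟩
    rw [ez]
    simp
  · exfalso
    refine hhalf ?_
    have := neg_mem (I_mul_mem L h₃ hz')
    simpa [← mul_assoc, mul_comm _ Complex.I, Complex.I_mul_I] using this
  · exfalso
    exact hhalf (by simpa using hz')
  · exfalso
    -- `℘(ω/2) = e` and `℘(i ω/2) = - e`
    have h1 := wp_half_period L h₂ h₃' hω hper (e := e) (by linarith) (fun t ht => by
      linarith [hbeyond t ht])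
    have h2 : L.weierstrassP (Complex.I * ((ω / 2 : ℝ) : ℂ)) =
        L.weierstrassP ((ω / 2 : ℝ) : ℂ) := by
      rw [← L.weierstrassP_neg ((ω / 2 : ℝ) : ℂ),
        ← (FA.Mazur.Wp.wp_sub_coe L (z := -((ω / 2 : ℝ) : ℂ)) hz').1]
      congr 1
      push_cast
      ring
    rw [wp_I_mul L h₃] at h2
    have h5 : (L.weierstrassP ((ω / 2 : ℝ) : ℂ)) = 0 := by linear_combination (-(1 : ℂ) / 2) * h2
    rw [h5] at h1
    simp at h1
    linarith

end FA.RealPoints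

end
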