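import Fermat.Agent.Root.SummaryRealPeriod
import Fermat.Agent.RealPoints.GammaPeriod

/-!
# Rectangular lattices

With three real roots `e₁ < e₂ < e₃` the lattice is `ω ℤ + i ω' ℤ`, `ω` its real period and `ω'`
that of `i L`, whose roots are `-e₃ < -e₂ < -e₁`.
-/

set_option autoImplicit false
set_option linter.style.haveILetI false

noncomputable section

open MeasureTheory Set
open scoped Real ComplexConjugate

namespace FA.RealPoints

/-- `℘` of the scaled lattice. -/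
theorem wp_scalePair (L : PeriodPair) {c : ℂ} (hc : c ≠ 0) (z : ℂ) :
    (FA.JInj.scalePair L c hc).weierstrassP (c * z) = (c ^ 2)⁻¹ * L.weierstrassP z := by
  let e : L.lattice ≃ (FA.JInj.scalePair L c hc).lattice :=
    (Equiv.mulLeft₀ c hc).subtypeEquiv fun x => by
      rw [FA.JInj.mem_scalePair]
      exact ⟨fun h => ⟨x, h, rfl⟩, fun ⟨y, hy, h⟩ => mul_left_cancel₀ hc h ▸ hy⟩
  rw [PeriodPair.weierstrassP, PeriodPair.weierstrassP, ← e.tsum_eq, ← tsum_mul_left]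
  refine tsum_congr fun l => ?_
  show 1 / (c * z - c * l.1) ^ 2 - 1 / (c * l.1) ^ 2 = _
  rw [← mul_sub, mul_pow, mul_pow]
  field_simp

/-- **The lattice is rectangular.** -/
theorem mem_lattice_rectangular (L : PeriodPair) {e₁ e₂ e₃ ω ω' : ℝ} (h12 : e₁ < e₂)
    (h23 : e₂ < e₃) (h0 : e₁ + e₂ + e₃ = 0)
    (h₂ : L.g₂ = ((-4 * (e₁ * e₂ + e₁ * e₃ + e₂ * e₃) : ℝ) : ℂ))
    (h₃ : L.g₃ = ((4 * (e₁ * e₂ * e₃) : ℝ) : ℂ))
    (hω : 0 < ω) (hper : ∀ s : ℝ, (s : ℂ) ∈ L.lattice ↔ ∃ m : ℤ, s = m * ω)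
    (hω' : 0 < ω') (hper' : ∀ s : ℝ,
      (s : ℂ) ∈ (FA.JInj.scalePair L Complex.I Complex.I_ne_zero).lattice ↔ ∃ m : ℤ, s = m * ω')
    (z : ℂ) :
    z ∈ L.lattice ↔
      ∃ p : ℤ × ℤ, z = (p.1 : ℂ) * ω + (p.2 : ℂ) * ((ω' : ℂ) * Complex.I) := by
  have himag : ∀ s : ℝ, (s : ℂ) * Complex.I ∈ L.lattice ↔ ∃ m : ℤ, s = m * ω' := fun s => by
    rw [← hper', FA.JInj.mem_scalePair]
    constructor
    · intro h
      exact ⟨-((s : ℂ) * Complex.I), neg_mem h, by linear_combination -(s : ℂ) * Complex.I_mul_I⟩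
    · rintro ⟨y, hy, he⟩
      have : (s : ℂ) * Complex.I = -y := by
        linear_combination (-Complex.I) * he + y * Complex.I_mul_I
      rw [this]
      exact neg_mem hy
  have hωl : (ω : ℂ) ∈ L.lattice := (hper ω).mpr ⟨1, by simp⟩
  have hω'l : (ω' : ℂ) * Complex.I ∈ L.lattice := (himag ω').mpr ⟨1, by simp⟩
  have hgen : ∀ m n : ℤ, (m : ℂ) * ω + (n : ℂ) * ((ω' : ℂ) * Complex.I) ∈ L.lattice := fun m n => by
    have := add_mem (L.lattice.smul_mem m hωl) (L.lattice.smul_mem n hω'l)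
    rwa [zsmul_eq_mul, zsmul_eq_mul] at this
  refine ⟨fun hz => ?_, fun ⟨p, hp⟩ => hp ▸ hgen p.1 p.2⟩
  have hc := (conj_mem L h₂ h₃).mpr hz
  obtain ⟨j, hj⟩ := (hper (2 * z.re)).mp (by
    have := add_mem hz hc
    rwa [Complex.add_conj] at this)
  obtain ⟨k, hk⟩ := (himag (2 * z.im)).mp (by
    have := sub_mem hz hc
    rwa [Complex.sub_conj] at this)
  obtain ⟨j', a, ha, rfl⟩ : ∃ j' a : ℤ, (a = 0 ∨ a = 1) ∧ j = 2 * j' + a :=
    ⟨j / 2, j % 2, by omega, by omega⟩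
  obtain ⟨k', b, hb, rfl⟩ : ∃ k' b : ℤ, (b = 0 ∨ b = 1) ∧ k = 2 * k' + b :=
    ⟨k / 2, k % 2, by omega, by omega⟩
  have hz' := sub_mem hz (hgen j' k')
  have ez : z - ((j' : ℂ) * ω + (k' : ℂ) * ((ω' : ℂ) * Complex.I)) =
      ((a * ω / 2 : ℝ) : ℂ) + ((b * ω' / 2 : ℝ) : ℂ) * Complex.I := by
    push_cast at hj hk
    apply Complex.ext <;> simp <;> linarith
  rw [ez] at hz'
  have hhalf : ((ω / 2 : ℝ) : ℂ) ∉ L.lattice :=
    notMem_lattice_of_Ioo L hω hper ⟨by linarith, by linarith⟩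
  have hhalf' : ((ω' / 2 : ℝ) : ℂ) * Complex.I ∉ L.lattice := fun h => by
    obtain ⟨m, hm⟩ := (himag _).mp h
    exact notMem_lattice_of_Ioo _ hω' hper' (s := ω' / 2) ⟨by linarith, by linarith⟩
      ((hper' _).mpr ⟨m, hm⟩)
  rcases ha with rfl | rfl <;> rcases hb with rfl | rfl
  · refine ⟨(j', k'), sub_eq_zero.mp ?_⟩
    rw [ez]
    simp
  · exfalso
    exact hhalf' (by simpa using hz')
  · exfalso
    exact hhalf (by simpa using hz')
  · exfalso
    -- `℘(ω/2) = e₃` and `℘(i ω'/2) = e₁`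
    have h1 := wp_half_period L h₂ h₃ hω hper (e := e₃)
      (by linear_combination (4 * e₃ ^ 2) * h0) (fun t ht => by
        have : 4 * t ^ 3 - -4 * (e₁ * e₂ + e₁ * e₃ + e₂ * e₃) * t - 4 * (e₁ * e₂ * e₃) =
            4 * ((t - e₁) * (t - e₂) * (t - e₃)) := by linear_combination 4 * t ^ 2 * h0
        rw [this]
        exact mul_pos four_pos
          (mul_pos (mul_pos (by linarith) (by linarith)) (by linarith)))
    have h1' := wp_half_period (FA.JInj.scalePair L Complex.I Complex.I_ne_zero)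
      (a := -4 * (e₁ * e₂ + e₁ * e₃ + e₂ * e₃)) (b := -(4 * (e₁ * e₂ * e₃)))
      (by rw [FA.JInj.g₂_scalePair, Complex.I_pow_four, inv_one, one_mul, h₂])
      (by rw [FA.JInj.g₃_scalePair, show Complex.I ^ 6 = (Complex.I ^ 2) ^ 3 by ring, Complex.I_sq,
        h₃]; push_cast; norm_num)
      hω' hper' (e := -e₁) (by linear_combination (-4 * e₁ ^ 2) * h0) (fun t ht => by
        have : 4 * t ^ 3 - -4 * (e₁ * e₂ + e₁ * e₃ + e₂ * e₃) * t - -(4 * (e₁ * e₂ * e₃)) =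
            4 * ((t + e₁) * (t + e₂) * (t + e₃)) := by linear_combination -4 * t ^ 2 * h0
        rw [this]
        exact mul_pos four_pos
          (mul_pos (mul_pos (by linarith) (by linarith)) (by linarith)))
    have h2 : L.weierstrassP (((ω' / 2 : ℝ) : ℂ) * Complex.I) =
        L.weierstrassP ((ω / 2 : ℝ) : ℂ) := by
      rw [← L.weierstrassP_neg ((ω / 2 : ℝ) : ℂ),
        ← (FA.Mazur.Wp.wp_sub_coe L (z := -((ω / 2 : ℝ) : ℂ)) hz').1]
      congr 1
      push_cast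
      ring
    have h4 := wp_scalePair L Complex.I_ne_zero (((ω' / 2 : ℝ) : ℂ) * Complex.I)
    rw [show Complex.I * (((ω' / 2 : ℝ) : ℂ) * Complex.I) = -((ω' / 2 : ℝ) : ℂ) by
      linear_combination ((ω' / 2 : ℝ) : ℂ) * Complex.I_mul_I, PeriodPair.weierstrassP_neg,
      Complex.I_sq, h2, inv_neg, inv_one, neg_one_mul] at h4
    rw [h4, Complex.neg_re, h1] at h1'
    linarith

end FA.RealPoints

end
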