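import Mathlib.Analysis.Fourier.AddCircle
import Mathlib.Topology.UrysohnsLemma
import Mathlib.MeasureTheory.Measure.Regular

/-!
# Weyl's equidistribution theorem

The multiples of an element of infinite order of the circle are equidistributed: averages of
continuous functions along them tend to the integral, and a set whose boundary is null has its
measure as natural density of visits.
-/

set_option autoImplicit false
set_option linter.style.haveILetI false

noncomputable section

open Filter Topology MeasureTheory AddCircle Finset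
open scoped Real

namespace FA.RealPoints

variable {T : ℝ} [hT : Fact (0 < T)] {α : AddCircle T}

/-- The average of a function along the first `N` multiples, shifted by `β`. -/
def average (β α : AddCircle T) (f : AddCircle T → ℂ) (N : ℕ) : ℂ :=
  (∑ n ∈ range N, f (β + n • α)) / N

theorem integral_fourier (k : ℤ) :
    ∫ x, fourier k x ∂(haarAddCircle : Measure (AddCircle T)) = if k = 0 then 1 else 0 := by
  have h := congrFun (fourierCoeff_fourier (T := T) k) 0
  simpa [fourierCoeff, Pi.single_apply, eq_comm] using h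

omit hT in
theorem norm_average_le (β : AddCircle T) (f : AddCircle T → ℂ) {C : ℝ}
    (hC : ∀ x, ‖f x‖ ≤ C) (N : ℕ) : ‖average β α f N‖ ≤ C := by
  rcases eq_or_ne N 0 with rfl | hN
  · simpa [average] using le_trans (norm_nonneg _) (hC 0)
  rw [average, norm_div, RCLike.norm_natCast,
    div_le_iff₀ (Nat.cast_pos.mpr (Nat.pos_of_ne_zero hN))]
  refine (norm_sum_le _ _).trans ((Finset.sum_le_sum fun n _ => hC _).trans (le_of_eq ?_))
  rw [sum_const, card_range, nsmul_eq_mul]
  ring

/-- The characters average to zero. -/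
theorem tendsto_average_fourier (hα : ∀ n : ℤ, n ≠ 0 → n • α ≠ 0) (β : AddCircle T) (k : ℤ) :
    Tendsto (average β α (fourier k)) atTop
      (𝓝 (∫ x, fourier k x ∂(haarAddCircle : Measure (AddCircle T)))) := by
  rw [integral_fourier]
  split_ifs with hk
  · subst hk
    refine Tendsto.congr' ?_ tendsto_const_nhds
    filter_upwards [eventually_gt_atTop 0] with N hN
    simp [average, div_self (Nat.cast_ne_zero.mpr hN.ne' : (N : ℂ) ≠ 0)]
  set ζ : ℂ := fourier k α with hζ
  have hζ1 : ζ ≠ 1 := fun e => by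
    rw [hζ, fourier_apply, Circle.coe_eq_one] at e
    refine hα k hk (injective_toCircle hT.out.ne' ?_)
    rw [e, toCircle_zero]
  have hterm : ∀ n : ℕ, fourier k (β + n • α) = fourier k β * ζ ^ n := fun n => by
    rw [hζ, fourier_apply, fourier_apply, fourier_apply, smul_add, toCircle_add, Circle.coe_mul,
      smul_comm k n α, toCircle_nsmul, Circle.coe_pow]
  have hnorm : ∀ x : AddCircle T, ‖fourier k x‖ = 1 := fun x => by
    rw [fourier_apply]; exact Circle.norm_coe _
  refine squeeze_zero_norm (fun N => ?_) (tendsto_const_div_atTop_nhds_zero_nat (2 / ‖ζ - 1‖))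
  rw [average, norm_div, RCLike.norm_natCast]
  refine div_le_div_of_nonneg_right ?_ (Nat.cast_nonneg N)
  simp only [hterm, ← mul_sum]
  rw [norm_mul, hnorm, one_mul, geom_sum_eq hζ1, norm_div]
  refine div_le_div_of_nonneg_right ((norm_sub_le _ _).trans ?_) (norm_nonneg _)
  rw [norm_pow, hζ, hnorm, one_pow, norm_one]
  norm_num

/-- **Weyl's theorem.** -/
theorem tendsto_average (hα : ∀ n : ℤ, n ≠ 0 → n • α ≠ 0) (β : AddCircle T)
    (f : C(AddCircle T, ℂ)) :
    Tendsto (average β α f) atTop (𝓝 (∫ x, f x ∂(haarAddCircle : Measure (AddCircle T)))) := by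
  set μ : Measure (AddCircle T) := haarAddCircle
  have hint : ∀ g : C(AddCircle T, ℂ), Integrable g μ := fun g =>
    g.continuous.integrable_of_hasCompactSupport (HasCompactSupport.of_compactSpace _)
  let S : Submodule ℂ C(AddCircle T, ℂ) :=
    { carrier := {g | Tendsto (average β α g) atTop (𝓝 (∫ x, g x ∂μ))}
      add_mem' := fun {g g'} hg hg' => by
        show Tendsto (average β α (g + g')) atTop (𝓝 (∫ x, g x + g' x ∂μ))
        rw [integral_add (hint g) (hint g')]
        refine (hg.add hg').congr fun N => ?_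
        simp [average, sum_add_distrib, add_div]
      zero_mem' := by
        show Tendsto (average β α (0 : C(AddCircle T, ℂ))) atTop (𝓝 (∫ _, (0 : ℂ) ∂μ))
        rw [integral_zero]
        exact tendsto_const_nhds.congr fun N => by simp [average]
      smul_mem' := fun c g hg => by
        show Tendsto (average β α (c • g)) atTop (𝓝 (∫ x, c • g x ∂μ))
        rw [integral_smul]
        refine (hg.const_smul c).congr fun N => ?_
        simp [average, mul_sum, ← mul_div_assoc] }
  have hspan : Submodule.span ℂ (Set.range (fourier (T := T))) ≤ S :=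
    Submodule.span_le.mpr (by rintro _ ⟨k, rfl⟩; exact tendsto_average_fourier hα β k)
  have hf : f ∈ closure (Submodule.span ℂ (Set.range (fourier (T := T))) :
      Set C(AddCircle T, ℂ)) := by
    rw [← Submodule.topologicalClosure_coe, span_fourier_closure_eq_top]; trivial
  rw [Metric.tendsto_atTop]
  intro ε hε
  obtain ⟨g, hg, hfg⟩ := Metric.mem_closure_iff.mp hf (ε / 3) (by linarith)
  obtain ⟨N₀, hN₀⟩ := Metric.tendsto_atTop.mp (hspan hg) (ε / 3) (by linarith)
  refine ⟨N₀, fun N hN => ?_⟩
  have hbound : ∀ x, ‖f x - g x‖ ≤ dist f g := fun x => by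
    rw [← dist_eq_norm]; exact ContinuousMap.dist_apply_le_dist x
  have h1 : ‖average β α f N - average β α g N‖ ≤ dist f g := by
    convert norm_average_le (α := α) β (fun x => f x - g x) hbound N using 2
    simp [average, sub_div]
  have h2 : ‖∫ x, g x ∂μ - ∫ x, f x ∂μ‖ ≤ dist f g := by
    rw [← integral_sub (hint g) (hint f)]
    refine (norm_integral_le_of_norm_le_const (C := dist f g)
      (Eventually.of_forall fun x => ?_)).trans (by simp [μ])
    rw [norm_sub_rev]; exact hbound x
  rw [← dist_eq_norm] at h1 h2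
  have h3 := hN₀ N hN
  have := dist_triangle4 (average β α f N) (average β α g N) (∫ x, g x ∂μ) (∫ x, f x ∂μ)
  linarith

open scoped Classical in
/-- The visits to a set among the first `N` multiples. -/
def visits (β α : AddCircle T) (s : Set (AddCircle T)) (N : ℕ) : ℕ :=
  #{n ∈ range N | β + n • α ∈ s}

omit hT in
theorem visits_compl (β : AddCircle T) (s : Set (AddCircle T)) (N : ℕ) :
    (visits β α sᶜ N : ℝ) = N - visits β α s N := by
  classical
  rw [eq_sub_iff_add_eq, ← Nat.cast_add]
  congr 1
  rw [visits, visits, add_comm]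
  simpa using Finset.card_filter_add_card_filter_not (s := range N)
    (fun n => β + n • α ∈ s)

/-- Visits to a closed set. -/
theorem eventually_visits_le (hα : ∀ n : ℤ, n ≠ 0 → n • α ≠ 0) (β : AddCircle T)
    {F : Set (AddCircle T)} (hF : IsClosed F) {ε : ℝ} (hε : 0 < ε) :
    ∀ᶠ N : ℕ in atTop,
      (visits β α F N : ℝ) / N ≤ (haarAddCircle : Measure (AddCircle T)).real F + ε := by
  classical
  set μ : Measure (AddCircle T) := haarAddCircle
  obtain ⟨V, hFV, hV, hμV⟩ := F.exists_isOpen_lt_add (μ := μ) (measure_ne_top _ _)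
    (ε := ENNReal.ofReal (ε / 2)) (by simpa using hε)
  obtain ⟨g, hg0, hg1, hgI⟩ := exists_continuous_zero_one_of_isClosed hV.isClosed_compl hF
    (Set.disjoint_compl_left_iff_subset.mpr hFV)
  have hgi : ∫ x, g x ∂μ ≤ μ.real V := by
    rw [← integral_indicator_one hV.measurableSet]
    refine integral_mono (g.continuous.integrable_of_hasCompactSupport
      (HasCompactSupport.of_compactSpace _))
      ((integrable_const (1 : ℝ)).indicator hV.measurableSet) fun x => ?_
    by_cases hx : x ∈ V
    · rw [Set.indicator_of_mem hx]; exact (hgI x).2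
    · rw [Set.indicator_of_notMem hx, hg0 hx]; rfl
  have hV' : μ.real V ≤ μ.real F + ε / 2 := by
    have h := ENNReal.toReal_mono (by finiteness) hμV.le
    rwa [ENNReal.toReal_add (measure_ne_top _ _) ENNReal.ofReal_ne_top,
      ENNReal.toReal_ofReal (by linarith)] at h
  let G : C(AddCircle T, ℂ) := ⟨fun x => (g x : ℂ), by fun_prop⟩
  have h := (Complex.continuous_re.tendsto _).comp (tendsto_average hα β G)
  have hG : (∫ x, G x ∂μ).re = ∫ x, g x ∂μ := by
    show (∫ x, ((g x : ℝ) : ℂ) ∂μ).re = _
    rw [integral_complex_ofReal, Complex.ofReal_re]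
  rw [hG] at h
  filter_upwards [h.eventually (eventually_le_nhds (show ∫ x, g x ∂μ < ∫ x, g x ∂μ + ε / 2 by
    linarith))] with N hN
  refine le_trans ?_ ((le_trans hN (by linarith [hgi, hV'])) : _ ≤ μ.real F + ε)
  have e : (average β α G N).re = (∑ n ∈ range N, g (β + n • α)) / N := by
    show ((∑ n ∈ range N, ((g (β + n • α) : ℝ) : ℂ)) / (N : ℂ)).re = _
    rw [← Complex.ofReal_sum, Complex.div_natCast_re, Complex.ofReal_re]
  rw [Function.comp_apply, e]
  refine div_le_div_of_nonneg_right ?_ (Nat.cast_nonneg N)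
  rw [visits, card_filter, Nat.cast_sum]
  refine sum_le_sum fun n _ => ?_
  split_ifs with hn
  · rw [hg1 hn]; simp
  · simpa using (hgI _).1

/-- **Visits to a set with null boundary have its measure as density.** -/
theorem tendsto_visits (hα : ∀ n : ℤ, n ≠ 0 → n • α ≠ 0) (β : AddCircle T)
    {U F s : Set (AddCircle T)} (hU : IsOpen U) (hF : IsClosed F) (hUs : U ⊆ s) (hsF : s ⊆ F)
    (h0 : (haarAddCircle : Measure (AddCircle T)) (F \ U) = 0) :
    Tendsto (fun N : ℕ => (visits β α s N : ℝ) / N) atTop
      (𝓝 ((haarAddCircle : Measure (AddCircle T)).real U)) := by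
  classical
  set μ : Measure (AddCircle T) := haarAddCircle
  have hFU : μ.real F = μ.real U := by
    refine congrArg ENNReal.toReal (le_antisymm ?_ (measure_mono (hUs.trans hsF)))
    calc μ F ≤ μ (U ∪ F \ U) :=
          measure_mono (by rw [Set.union_sdiff_self]; exact Set.subset_union_right)
      _ ≤ μ U + μ (F \ U) := measure_union_le _ _
      _ = μ U := by rw [h0, add_zero]
  have hmono : ∀ a b : Set (AddCircle T), a ⊆ b → ∀ N, (visits β α a N : ℝ) / N ≤
      (visits β α b N : ℝ) / N := fun a b hab N =>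
    div_le_div_of_nonneg_right (Nat.cast_le.mpr (card_le_card
      (monotone_filter_right _ fun n _ hn => hab hn))) (Nat.cast_nonneg N)
  rw [Metric.tendsto_nhds]
  intro ε hε
  filter_upwards [eventually_visits_le hα β hF (half_pos hε),
    eventually_visits_le hα β hU.isClosed_compl (half_pos hε), eventually_gt_atTop 0]
    with N h1 h2 hN
  have hN' : (0 : ℝ) < N := Nat.cast_pos.mpr hN
  rw [visits_compl, sub_div, div_self hN'.ne', probReal_compl_eq_one_sub hU.measurableSet] at h2
  have h3 := hmono _ _ hUs N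
  have h4 := hmono _ _ hsF N
  rw [Real.dist_eq, abs_lt]
  constructor <;> linarith

/-- A nonempty open set has positive measure. -/
theorem haar_real_pos {U : Set (AddCircle T)} (hU : IsOpen U) (hne : U.Nonempty) :
    0 < (haarAddCircle : Measure (AddCircle T)).real U :=
  ENNReal.toReal_pos (hU.measure_pos _ hne).ne' (measure_ne_top _ _)

/-- A finite set is null. -/
theorem haar_finite {s : Set (AddCircle T)} (hs : s.Finite) :
    (haarAddCircle : Measure (AddCircle T)) s = 0 := by
  have h : (volume : Measure (AddCircle T)) s = 0 := by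
    rw [← Set.biUnion_of_singleton s, measure_biUnion_null_iff hs.countable]
    intro x _
    rw [← Metric.closedBall_zero (x := x), AddCircle.volume_closedBall, mul_zero,
      min_eq_right hT.out.le, ENNReal.ofReal_zero]
  rw [volume_eq_smul_haarAddCircle, Measure.smul_apply, smul_eq_mul, mul_eq_zero] at h
  exact h.resolve_left (by simpa using hT.out)

/-- An arc of length `b - a` has `(b - a) / T` as measure. -/
theorem haar_arc {a b : ℝ} (hab : a ≤ b) (hb : b ≤ a + T) :
    (haarAddCircle : Measure (AddCircle T)).real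
      (((↑) : ℝ → AddCircle T) '' Set.Ioo a b) = (b - a) / T := by
  set U := ((↑) : ℝ → AddCircle T) '' Set.Ioo a b
  have hUo : IsOpen U := QuotientAddGroup.isOpenMap_coe _ isOpen_Ioo
  have h1 : (volume : Measure (AddCircle T)) U = ENNReal.ofReal (b - a) := by
    rw [← (AddCircle.measurePreserving_mk T a).measure_preimage hUo.measurableSet.nullMeasurableSet,
      Measure.restrict_apply (hUo.measurableSet.preimage AddCircle.measurable_mk'),
      show ((↑) : ℝ → AddCircle T) ⁻¹' U ∩ Set.Ioc a (a + T) = Set.Ioo a b from ?_,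
      Real.volume_Ioo]
    refine Set.Subset.antisymm ?_ fun x hx =>
      ⟨⟨x, hx, rfl⟩, hx.1, hx.2.le.trans hb⟩
    rintro x ⟨⟨y, hy, e⟩, hx⟩
    rwa [← (AddCircle.coe_eq_coe_iff_of_mem_Ioc (a := a) ⟨hy.1, hy.2.le.trans hb⟩ hx).mp e]
  rw [volume_eq_smul_haarAddCircle, Measure.smul_apply, smul_eq_mul] at h1
  have h2 := congrArg ENNReal.toReal h1
  rw [ENNReal.toReal_mul, ENNReal.toReal_ofReal hT.out.le,
    ENNReal.toReal_ofReal (by linarith)] at h2
  rw [eq_div_iff hT.out.ne', mul_comm]
  exact h2

open scoped Classical in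
/-- A set of natural numbers has natural density `d`. -/
def HasDensity (p : ℕ → Prop) (d : ℝ) : Prop :=
  Tendsto (fun N : ℕ => (#{n ∈ range N | p n} : ℝ) / N) atTop (𝓝 d)

/-- Visits to a set with null boundary, as a natural density. -/
theorem hasDensity_visits (hα : ∀ n : ℤ, n ≠ 0 → n • α ≠ 0) (β : AddCircle T)
    {U F s : Set (AddCircle T)} (hU : IsOpen U) (hF : IsClosed F) (hUs : U ⊆ s) (hsF : s ⊆ F)
    (h0 : (haarAddCircle : Measure (AddCircle T)) (F \ U) = 0) {p : ℕ → Prop}
    (hp : ∀ n : ℕ, p n ↔ β + n • α ∈ s) :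
    HasDensity p ((haarAddCircle : Measure (AddCircle T)).real U) := by
  rw [show p = fun n : ℕ => β + n • α ∈ s from funext fun n => propext (hp n)]
  exact tendsto_visits hα β hU hF hUs hsF h0

/-- Density from the even and the odd numbers. -/
theorem hasDensity_of_parity {p : ℕ → Prop} {d₀ d₁ : ℝ} (h₀ : HasDensity (fun m => p (2 * m)) d₀)
    (h₁ : HasDensity (fun m => p (2 * m + 1)) d₁) : HasDensity p ((d₀ + d₁) / 2) := by
  classical
  unfold HasDensity at *
  set c : ℕ → ℕ := fun N => #{n ∈ range N | p n}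
  set c₀ : ℕ → ℕ := fun N => #{n ∈ range N | p (2 * n)}
  set c₁ : ℕ → ℕ := fun N => #{n ∈ range N | p (2 * n + 1)}
  have hstep : ∀ N, c (N + 1) = c N + if p N then 1 else 0 := fun N => by
    simp only [c, card_filter, sum_range_succ]
  have heven : ∀ K, c (2 * K) = c₀ K + c₁ K := by
    intro K
    induction K with
    | zero => simp [c, c₀, c₁]
    | succ K ih =>
      rw [show 2 * (K + 1) = 2 * K + 1 + 1 by ring, hstep, hstep, ih]
      simp only [c₀, c₁, card_filter, sum_range_succ]
      omega
  have hhalf : Tendsto (fun N : ℕ => N / 2) atTop atTop :=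
    tendsto_atTop_atTop.mpr fun b => ⟨2 * b, fun N hN => by omega⟩
  have hratio : Tendsto (fun N : ℕ => ((N / 2 : ℕ) : ℝ) / N) atTop (𝓝 (1 / 2)) := by
    refine tendsto_of_tendsto_of_tendsto_of_le_of_le' (g := fun N : ℕ => 1 / 2 - 1 / (N : ℝ))
      (h := fun _ => (1 : ℝ) / 2) ?_ tendsto_const_nhds ?_ ?_
    · have h := (tendsto_const_div_atTop_nhds_zero_nat (1 : ℝ)).const_sub ((1 : ℝ) / 2)
      rwa [sub_zero] at h
    all_goals
      filter_upwards [eventually_gt_atTop 0] with N hN
      have hN' : (0 : ℝ) < N := Nat.cast_pos.mpr hN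
      have h := Nat.div_add_mod N 2
      have h' : (2 : ℝ) * ((N / 2 : ℕ) : ℝ) + ((N % 2 : ℕ) : ℝ) = N := by exact_mod_cast h
      have h2 : ((N % 2 : ℕ) : ℝ) ≤ 1 := by exact_mod_cast Nat.lt_succ_iff.mp (Nat.mod_lt N two_pos)
      have h3 : (0 : ℝ) ≤ ((N % 2 : ℕ) : ℝ) := Nat.cast_nonneg _
      field_simp
      linarith
  have hmain : Tendsto (fun N : ℕ => (c (2 * (N / 2)) : ℝ) / N) atTop (𝓝 ((d₀ + d₁) / 2)) := by
    have h := ((h₀.comp hhalf).add (h₁.comp hhalf)).mul hratio
    rw [← div_eq_mul_one_div] at h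
    refine h.congr' ?_
    filter_upwards [eventually_ge_atTop 2] with N hN
    have hK : ((N / 2 : ℕ) : ℝ) ≠ 0 := Nat.cast_ne_zero.mpr (by omega)
    have hN' : (N : ℝ) ≠ 0 := Nat.cast_ne_zero.mpr (by omega)
    simp only [Function.comp_apply, heven, Nat.cast_add, c₀, c₁]
    field_simp
  have herr : Tendsto (fun N : ℕ => ((c N : ℝ) - c (2 * (N / 2))) / N) atTop (𝓝 0) := by
    refine squeeze_zero_norm (fun N => ?_) (tendsto_const_div_atTop_nhds_zero_nat (1 : ℝ))
    rw [norm_div, RCLike.norm_natCast]
    refine div_le_div_of_nonneg_right ?_ (Nat.cast_nonneg N)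
    have hb : c N ≤ c (2 * (N / 2)) + 1 ∧ c (2 * (N / 2)) ≤ c N := by
      rcases (show N = 2 * (N / 2) ∨ N = 2 * (N / 2) + 1 by omega) with e | e
      · exact ⟨by rw [← e]; omega, by rw [← e]⟩
      · obtain ⟨K, hK⟩ : ∃ K, N / 2 = K := ⟨_, rfl⟩
        rw [hK] at e ⊢
        rw [e, hstep]
        split_ifs <;> omega
    rw [Real.norm_eq_abs, abs_le]
    constructor <;>
      linarith [(Nat.cast_le (α := ℝ)).mpr hb.1, (Nat.cast_le (α := ℝ)).mpr hb.2,
        Nat.cast_add (R := ℝ) (c (2 * (N / 2))) 1, Nat.cast_one (R := ℝ)]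
  have h := hmain.add herr
  rw [add_zero] at h
  refine h.congr fun N => ?_
  show _ = (c N : ℝ) / N
  ring

end FA.RealPoints

end
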