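import Fermat.Agent.RealPoints.Density
import Fermat.Agent.RealPoints.Weyl

/-!
# Equidistribution of the multiples of a real point

The even and the odd multiples of a real point of infinite order are rotations of the two real
circles of the lattice, so the multiples with positive ordinate have natural density one half and
those with large abscissa have a positive one.
-/

set_option autoImplicit false
set_option linter.style.haveILetI false

noncomputable section

open Complex Filter Topology WeierstrassCurve MeasureTheory AddCircle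
open scoped ComplexConjugate

namespace FA.RealPoints

variable {L : PeriodPair} {a b ω : ℝ} (h₂ : L.g₂ = a) (h₃ : L.g₃ = b) {δ : ℂ}
  (hωL : (ω : ℂ) ∈ L.lattice)

/-- The point of the curve with the parameter `s + δ`, as a function on the circle. -/
def circlePoint (δ : ℂ) (x : AddCircle ω) : (FA.Mazur.Wp.latCurve L).toAffine.Point :=
  (show Function.Periodic (fun s : ℝ => FA.Mazur.Wp.unif L (s + δ)) ω from fun s => by
    show FA.Mazur.Wp.unif L (↑(s + ω) + δ) = FA.Mazur.Wp.unif L (s + δ)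
    rw [ofReal_add, add_right_comm]
    exact FA.Mazur.Wp.unif_add_mem L hωL).lift x

theorem circlePoint_coe (δ : ℂ) (s : ℝ) :
    circlePoint hωL δ (s : AddCircle ω) = FA.Mazur.Wp.unif L (s + δ) :=
  Function.Periodic.lift_coe _ s

/-- The real abscissa at a parameter. -/
def circleX (δ : ℂ) (x : AddCircle ω) : ℝ :=
  (show Function.Periodic (fun s : ℝ => (L.weierstrassP (s + δ)).re) ω from fun s => by
    show (L.weierstrassP (↑(s + ω) + δ)).re = (L.weierstrassP (s + δ)).re
    rw [ofReal_add, add_right_comm, (FA.Mazur.Wp.wp_sub_coe L hωL).1]).lift x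

theorem circleX_coe (δ : ℂ) (s : ℝ) :
    circleX hωL δ (s : AddCircle ω) = (L.weierstrassP (s + δ)).re :=
  Function.Periodic.lift_coe _ s

/-- The real ordinate at a parameter. -/
def circleY (δ : ℂ) (x : AddCircle ω) : ℝ :=
  (show Function.Periodic (fun s : ℝ => (L.derivWeierstrassP (s + δ)).re / 2) ω from fun s => by
    show (L.derivWeierstrassP (↑(s + ω) + δ)).re / 2 = (L.derivWeierstrassP (s + δ)).re / 2
    rw [ofReal_add, add_right_comm, (FA.Mazur.Wp.wp_sub_coe L hωL).2]).lift x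

theorem circleY_coe (δ : ℂ) (s : ℝ) :
    circleY hωL δ (s : AddCircle ω) = (L.derivWeierstrassP (s + δ)).re / 2 :=
  Function.Periodic.lift_coe _ s

variable (hper : ∀ s : ℝ, (s : ℂ) ∈ L.lattice ↔ ∃ m : ℤ, s = m * ω)

include hper in
theorem circlePoint_injective (δ : ℂ) : Function.Injective (circlePoint hωL δ) := by
  intro x x'
  induction x using QuotientAddGroup.induction_on with
  | _ s =>
    induction x' using QuotientAddGroup.induction_on with
    | _ s' =>
      intro h
      rw [circlePoint_coe, circlePoint_coe, FA.Mazur.Wp.unif_eq_unif_iff, add_sub_add_right_eq_sub,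
        ← ofReal_sub, hper] at h
      obtain ⟨m, hm⟩ := h
      rw [← sub_eq_zero, ← AddCircle.coe_sub, AddCircle.coe_eq_zero_iff]
      exact ⟨m, by rw [zsmul_eq_mul]; exact hm.symm⟩

/-- Where a periodic analytic function has values in an interval is a relatively open set. -/
theorem isOpen_region {g : AddCircle ω → ℝ} {F : ℝ → ℝ} (hg : ∀ s : ℝ, g s = F s)
    (hF : ∀ s : ℝ, (s : ℂ) + δ ∉ L.lattice → ContinuousAt F s) {I : Set ℝ} (hI : IsOpen I) :
    IsOpen {x : AddCircle ω | circlePoint hωL δ x ≠ 0 ∧ g x ∈ I} := by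
  rw [← (QuotientAddGroup.isQuotientMap_mk _).isOpen_preimage]
  have ho : IsOpen {s : ℝ | (s : ℂ) + δ ∉ L.lattice} :=
    L.isClosed_lattice.isOpen_compl.preimage (by fun_prop : Continuous fun s : ℝ => (s : ℂ) + δ)
  have e : ((↑) : ℝ → AddCircle ω) ⁻¹' {x | circlePoint hωL δ x ≠ 0 ∧ g x ∈ I} =
      {s : ℝ | (s : ℂ) + δ ∉ L.lattice} ∩ F ⁻¹' I := by
    ext s
    show circlePoint hωL δ (s : AddCircle ω) ≠ 0 ∧ g (s : AddCircle ω) ∈ I ↔ _
    rw [circlePoint_coe, ne_eq, FA.Mazur.Wp.unif_eq_zero_iff, hg]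
    rfl
  rw [e]
  exact ContinuousOn.isOpen_inter_preimage
    (fun s hs => (hF s hs).continuousWithinAt) ho hI

theorem continuousAt_wp_re {s : ℝ} (hs : (s : ℂ) + δ ∉ L.lattice) :
    ContinuousAt (fun s : ℝ => (L.weierstrassP (s + δ)).re) s :=
  Complex.continuous_re.continuousAt.comp ((L.analyticOnNhd_weierstrassP _ hs).continuousAt.comp
    (f := fun s : ℝ => (s : ℂ) + δ) (Continuous.continuousAt (by fun_prop)))

theorem continuousAt_wq_re {s : ℝ} (hs : (s : ℂ) + δ ∉ L.lattice) :
    ContinuousAt (fun s : ℝ => (L.derivWeierstrassP (s + δ)).re / 2) s :=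
  (Complex.continuous_re.continuousAt.comp
    ((L.analyticOnNhd_derivWeierstrassP _ hs).continuousAt.comp
      (f := fun s : ℝ => (s : ℂ) + δ) (Continuous.continuousAt (by fun_prop)))).div_const 2

include h₂ h₃ in
/-- Off the lattice the values are those of the point. -/
theorem exists_circlePoint_eq (hδ : δ - conj δ ∈ L.lattice) {x : AddCircle ω}
    (hx : circlePoint hωL δ x ≠ 0) : ∃ h, circlePoint hωL δ x =
      Affine.Point.some (circleX hωL δ x : ℂ) (circleY hωL δ x : ℂ) h := by
  induction x using QuotientAddGroup.induction_on with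
  | _ s =>
    rw [circlePoint_coe, ne_eq, FA.Mazur.Wp.unif_eq_zero_iff] at hx
    have hc : conj ((s : ℂ) + δ) = ((s : ℂ) + δ) + -(δ - conj δ) := by
      rw [map_add, conj_ofReal]; ring
    have h := wp_conj L h₂ h₃ ((s : ℂ) + δ)
    rw [hc, (FA.Mazur.Wp.wp_sub_coe L (neg_mem hδ)).1,
      (FA.Mazur.Wp.wp_sub_coe L (neg_mem hδ)).2] at h
    have e1 : ((circleX hωL δ (s : AddCircle ω) : ℝ) : ℂ) = L.weierstrassP (s + δ) := by
      rw [circleX_coe]; exact Complex.conj_eq_iff_re.mp h.1.symm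
    have e2 : ((circleY hωL δ (s : AddCircle ω) : ℝ) : ℂ) = L.derivWeierstrassP (s + δ) / 2 := by
      rw [circleY_coe, ofReal_div, Complex.conj_eq_iff_re.mp h.2.symm, ofReal_ofNat]
    refine ⟨?_, ?_⟩
    · rw [e1, e2]
      exact Affine.equation_iff_nonsingular.1 (FA.Mazur.Wp.equation_latCurve L hx)
    · rw [circlePoint_coe, FA.Mazur.Wp.unif_of_notMem L hx, Affine.Point.some.injEq]
      exact ⟨e1.symm, e2.symm⟩

/-- Finitely many points have a given abscissa or ordinate. -/
theorem finite_level (u : ℂ) :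
    {Q : (FA.Mazur.Wp.latCurve L).toAffine.Point |
      Q = 0 ∨ ∃ y h, Q = Affine.Point.some u y h}.Finite ∧
    {Q : (FA.Mazur.Wp.latCurve L).toAffine.Point |
      Q = 0 ∨ ∃ x h, Q = Affine.Point.some x u h}.Finite := by
  constructor
  · set p : Polynomial ℂ := Polynomial.X ^ 2 -
      Polynomial.C (u ^ 3 + (-L.g₂ / 4) * u + -L.g₃ / 4)
    have hp : p ≠ 0 := (Polynomial.monic_X_pow_sub_C _ two_ne_zero).ne_zero
    classical
    refine (((Polynomial.finite_setOfPred_isRoot hp).image fun y =>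
      if h : (FA.Mazur.Wp.latCurve L).toAffine.Nonsingular u y then Affine.Point.some u y h
      else 0).insert 0).subset ?_
    rintro Q (rfl | ⟨y, h, rfl⟩)
    · exact Set.mem_insert _ _
    refine Set.mem_insert_of_mem _ ⟨y, ?_, dif_pos h⟩
    have e := (Affine.equation_iff _ _).mp h.1
    simp only [FA.Mazur.Wp.latCurve, zero_mul, add_zero] at e
    simp [p, sub_eq_zero, e]
  · set p : Polynomial ℂ := Polynomial.X ^ 3 + Polynomial.C (-L.g₂ / 4) * Polynomial.X +
      Polynomial.C (-L.g₃ / 4 - u ^ 2)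
    have hp : p ≠ 0 := fun e => by
      have := congrArg (fun q => Polynomial.coeff q 3) e
      simp only [p, Polynomial.coeff_add, Polynomial.coeff_X_pow, Polynomial.coeff_C_mul,
        Polynomial.coeff_X, Polynomial.coeff_C, Polynomial.coeff_zero] at this
      norm_num at this
    classical
    refine (((Polynomial.finite_setOfPred_isRoot hp).image fun x =>
      if h : (FA.Mazur.Wp.latCurve L).toAffine.Nonsingular x u then Affine.Point.some x u h
      else 0).insert 0).subset ?_
    rintro Q (rfl | ⟨x, h, rfl⟩)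
    · exact Set.mem_insert _ _
    refine Set.mem_insert_of_mem _ ⟨x, ?_, dif_pos h⟩
    have e := (Affine.equation_iff _ _).mp h.1
    simp only [FA.Mazur.Wp.latCurve, zero_mul, add_zero] at e
    simp only [p, Set.mem_ofPred_eq, Polynomial.IsRoot.def, Polynomial.eval_add,
      Polynomial.eval_pow, Polynomial.eval_X, Polynomial.eval_mul, Polynomial.eval_C]
    linear_combination -e

variable [hω : Fact (0 < ω)]

include hper in
/-- Visits to a half space of a coordinate. -/
theorem density_coord {g : AddCircle ω → ℝ} {F : ℝ → ℝ} (hg : ∀ s : ℝ, g s = F s)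
    (hF : ∀ s : ℝ, (s : ℂ) + δ ∉ L.lattice → ContinuousAt F s) (M : ℝ)
    {S : Set (FA.Mazur.Wp.latCurve L).toAffine.Point} (hS : S.Finite)
    (hlevel : ∀ x, circlePoint hωL δ x = 0 ∨ g x = M → circlePoint hωL δ x ∈ S)
    {α : AddCircle ω} (hα : ∀ n : ℤ, n ≠ 0 → n • α ≠ 0) (β : AddCircle ω) :
    IsOpen {x | circlePoint hωL δ x ≠ 0 ∧ g x ∈ Set.Ioi M} ∧
    (haarAddCircle : Measure (AddCircle ω)).real {x | circlePoint hωL δ x ≠ 0 ∧ g x ∈ Set.Ioi M} +
      (haarAddCircle : Measure (AddCircle ω)).real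
        {x | circlePoint hωL δ x ≠ 0 ∧ g x ∈ Set.Iio M} = 1 ∧
    HasDensity (fun m => circlePoint hωL δ (β + m • α) ≠ 0 ∧ M < g (β + m • α))
      ((haarAddCircle : Measure (AddCircle ω)).real
        {x | circlePoint hωL δ x ≠ 0 ∧ g x ∈ Set.Ioi M}) := by
  classical
  set U := {x | circlePoint hωL δ x ≠ 0 ∧ g x ∈ Set.Ioi M}
  set V := {x | circlePoint hωL δ x ≠ 0 ∧ g x ∈ Set.Iio M}
  have hU : IsOpen U := isOpen_region hωL hg hF isOpen_Ioi
  have hV : IsOpen V := isOpen_region hωL hg hF isOpen_Iio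
  have hUV : U ⊆ Vᶜ := fun x hx hx' => lt_asymm hx.2 (Set.mem_Iio.mp hx'.2)
  have hZ : (Vᶜ \ U).Finite := by
    refine (hS.preimage (circlePoint_injective hωL hper δ).injOn).subset fun x hx => ?_
    show circlePoint hωL δ x ∈ S
    refine hlevel x ?_
    by_contra h
    rw [not_or] at h
    rcases lt_or_gt_of_ne h.2 with h' | h'
    · exact hx.1 ⟨h.1, h'⟩
    · exact hx.2 ⟨h.1, h'⟩
  have h0 := haar_finite hZ
  refine ⟨hU, ?_, ?_⟩
  · have h1 : (haarAddCircle : Measure (AddCircle ω)).real Vᶜ =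
        (haarAddCircle : Measure (AddCircle ω)).real U := by
      refine congrArg ENNReal.toReal (le_antisymm ?_ (measure_mono hUV))
      refine (measure_mono (Set.union_sdiff_cancel hUV).ge).trans ((measure_union_le _ _).trans ?_)
      rw [h0, add_zero]
    rw [← h1, probReal_compl_eq_one_sub hV.measurableSet]
    ring
  · exact hasDensity_visits hα β hU hV.isClosed_compl subset_rfl hUV h0 fun _ => Iff.rfl

include h₂ h₃ hper in
/-- On each circle the positive ordinates fill exactly one half. -/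
theorem density_circleY (hδ : δ - conj δ ∈ L.lattice) (h2δ : δ + δ ∈ L.lattice)
    {α : AddCircle ω} (hα : ∀ n : ℤ, n ≠ 0 → n • α ≠ 0) (β : AddCircle ω) :
    HasDensity (fun m => circlePoint hωL δ (β + m • α) ≠ 0 ∧ 0 < circleY hωL δ (β + m • α))
      (1 / 2) := by
  have h := density_coord hωL hper (δ := δ) (g := circleY hωL δ)
    (F := fun s : ℝ => (L.derivWeierstrassP (s + δ)).re / 2) (circleY_coe hωL δ)
    (fun s hs => continuousAt_wq_re hs) 0 (finite_level (L := L) 0).2 (fun x hx => by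
      by_cases h0 : circlePoint hωL δ x = 0
      · exact Or.inl h0
      obtain ⟨hn, e⟩ := exists_circlePoint_eq h₂ h₃ hωL hδ h0
      have hx' : circleY hωL δ x = 0 := hx.resolve_left h0
      exact Or.inr ⟨_, by simpa [hx'] using hn, by simp only [e, hx', ofReal_zero]⟩) hα β
  obtain ⟨hU, hsum, hd⟩ := h
  -- negation exchanges the two signs
  have hneg : ∀ x, (circlePoint hωL δ (-x) = 0 ↔ circlePoint hωL δ x = 0) ∧
      circleY hωL δ (-x) = -circleY hωL δ x := by
    intro x
    induction x using QuotientAddGroup.induction_on with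
    | _ s =>
      have e : ((-s : ℝ) : ℂ) + δ = -((s : ℂ) + δ) + (δ + δ) := by push_cast; ring
      constructor
      · rw [← AddCircle.coe_neg, circlePoint_coe, circlePoint_coe, e,
          FA.Mazur.Wp.unif_add_mem L h2δ, FA.Mazur.Wp.unif_neg, neg_eq_zero]
      · rw [← AddCircle.coe_neg, circleY_coe, circleY_coe, e,
          (FA.Mazur.Wp.wp_sub_coe L h2δ).2, L.derivWeierstrassP_neg, Complex.neg_re, neg_div]
  have hVU : {x | circlePoint hωL δ x ≠ 0 ∧ circleY hωL δ x ∈ Set.Iio 0} =
      -{x | circlePoint hωL δ x ≠ 0 ∧ circleY hωL δ x ∈ Set.Ioi 0} := by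
    ext x
    simp [(hneg x).1, (hneg x).2]
  rw [hVU, Measure.real, Measure.real, Measure.measure_neg] at hsum
  convert hd using 1
  rw [Measure.real]
  linarith

include h₂ h₃ hper in
/-- Large abscissae have a density, positive on the circle through the origin. -/
theorem density_circleX (hδ : δ - conj δ ∈ L.lattice) (M : ℝ)
    {α : AddCircle ω} (hα : ∀ n : ℤ, n ≠ 0 → n • α ≠ 0) (β : AddCircle ω) :
    ∃ d, 0 ≤ d ∧
      ((∃ s : ℝ, (s : ℂ) + δ ∉ L.lattice ∧ M < (L.weierstrassP (s + δ)).re) → 0 < d) ∧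
      HasDensity (fun m => circlePoint hωL δ (β + m • α) ≠ 0 ∧ M < circleX hωL δ (β + m • α))
        d := by
  have h := density_coord hωL hper (δ := δ) (g := circleX hωL δ)
    (F := fun s : ℝ => (L.weierstrassP (s + δ)).re) (circleX_coe hωL δ)
    (fun s hs => continuousAt_wp_re hs) M (finite_level (L := L) (M : ℂ)).1 (fun x hx => by
      by_cases h0 : circlePoint hωL δ x = 0
      · exact Or.inl h0
      obtain ⟨hn, e⟩ := exists_circlePoint_eq h₂ h₃ hωL hδ h0
      have hx' : circleX hωL δ x = M := hx.resolve_left h0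
      exact Or.inr ⟨_, hx' ▸ hn, by simp only [e, hx']⟩) hα β
  refine ⟨_, measureReal_nonneg, fun ⟨s, hs, hM⟩ => haar_real_pos h.1 ⟨(s : AddCircle ω), ?_, ?_⟩,
    h.2.2⟩
  · rw [circlePoint_coe, ne_eq, FA.Mazur.Wp.unif_eq_zero_iff]; exact hs
  · rw [circleX_coe]; exact hM

omit hω in
/-- A density depends only on the truth values. -/
theorem HasDensity.congr {p q : ℕ → Prop} {d : ℝ} (h : HasDensity p d) (e : ∀ n, p n ↔ q n) :
    HasDensity q d := by
  rwa [show q = p from funext fun n => propext (e n).symm]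

omit hω in
/-- Beyond an explicit bound the cubic is positive. -/
theorem exists_large (A B M : ℝ) :
    ∃ x, M < x ∧ ∀ t ≥ x, 0 < t ^ 3 + A * t + B := by
  refine ⟨|M| + |A| + |B| + 2, by linarith [le_abs_self M, abs_nonneg A, abs_nonneg B],
    fun t ht => ?_⟩
  have h1 : |A| + |B| + 2 ≤ t := by linarith [abs_nonneg M]
  have h2 : 1 ≤ t := by linarith [abs_nonneg A, abs_nonneg B]
  have h3 : (|A| + |B| + 2) * t ≤ t ^ 2 := by
    rw [pow_two]; exact mul_le_mul_of_nonneg_right h1 (by linarith)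
  have h4 : t ^ 2 * 1 ≤ t ^ 3 := by
    rw [pow_succ t 2]; exact mul_le_mul_of_nonneg_left h2 (sq_nonneg t)
  nlinarith [neg_abs_le A, neg_abs_le B, abs_nonneg A, abs_nonneg B]

omit hω in
/-- **The multiples of a point of infinite order**: ordinates are positive with density one half
and abscissae exceed any bound with positive density. -/
theorem equidistributed {A B : ℝ} [(shortCurve A B).IsElliptic]
    {P : (shortCurve A B).toAffine.Point} (hP : ¬IsOfFinAddOrder P) :
    HasDensity (fun n => ∃ x y h, n • P = Affine.Point.some x y h ∧ 0 < y) (1 / 2) ∧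
      ∀ M : ℝ, ∃ d, 0 < d ∧
        HasDensity (fun n => ∃ x y h, n • P = Affine.Point.some x y h ∧ M < x) d := by
  obtain ⟨L, ι, h₂, h₃, hιinj, hιsome⟩ := exists_lattice_hom A B
  obtain ⟨ω, hω, hper⟩ := exists_real_period L h₂ h₃
  haveI := Fact.mk hω
  have hωL : (ω : ℂ) ∈ L.lattice := (hper ω).mpr ⟨1, by simp⟩
  obtain ⟨z, hz'⟩ := FA.ClassNumberOne.unif_surjective L (ι P)
  have hz : FA.Mazur.Wp.unif L z = ι P := hz'
  have hconj := (FA.Mazur.Wp.unif_eq_unif_iff L).mp (unif_conj_param h₂ h₃ hιsome hz).symm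
  set δ : ℂ := (z.im : ℂ) * I with hδdef
  have hz2 : (z.re : ℂ) + δ = z := by rw [hδdef, Complex.re_add_im]
  have hδδ : δ + δ ∈ L.lattice := by
    rwa [show δ + δ = z - conj z by
      rw [hδdef, Complex.sub_conj]; push_cast; ring]
  have hδc : δ - conj δ ∈ L.lattice := by
    rwa [show δ - conj δ = δ + δ by rw [hδdef, map_mul, conj_ofReal, conj_I]; ring]
  set t : ℝ := 2 * z.re
  have ht : ∀ m : ℕ, FA.Mazur.Wp.unif L ((m * t : ℝ) : ℂ) = (2 * m) • ι P := fun m => by
    have h1 : FA.Mazur.Wp.unif L (t : ℂ) = 2 • ι P := by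
      rw [show (t : ℂ) = z + conj z from (Complex.add_conj z).symm, FA.Mazur.Wp.unif_add,
        unif_conj_param h₂ h₃ hιsome hz, two_nsmul, hz]
    rw [← FA.Mazur.Wp.unifHom_apply, ofReal_mul, ofReal_natCast, ← nsmul_eq_mul, map_nsmul,
      FA.Mazur.Wp.unifHom_apply, h1, ← mul_nsmul, mul_comm]
  have hα : ∀ k : ℤ, k ≠ 0 → k • (t : AddCircle ω) ≠ 0 := fun k hk e => by
    obtain ⟨m, hm⟩ := (AddCircle.coe_eq_zero_iff ω).mp ((AddCircle.coe_zsmul (p := ω) (n := k)
      (x := t)).trans e)
    obtain ⟨j, rfl | rfl⟩ := k.eq_nat_or_neg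
    all_goals
      have hj : j ≠ 0 := by rintro rfl; simp at hk
      have hmem : (((j : ℝ) * t : ℝ) : ℂ) ∈ L.lattice := (hper _).mpr (by
        first
        | exact ⟨m, by simpa [zsmul_eq_mul, mul_comm] using hm.symm⟩
        | exact ⟨-m, by
            rw [zsmul_eq_mul, zsmul_eq_mul] at hm; push_cast at hm ⊢; linarith⟩)
      have h0 := (ht j).symm.trans (FA.Mazur.Wp.unif_of_mem L hmem)
      rw [← map_nsmul, map_eq_zero_iff ι hιinj] at h0
      exact hP (isOfFinAddOrder_iff_nsmul_eq_zero.mpr ⟨2 * j, by omega, h0⟩)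
  have hval : ∀ m : ℕ, circlePoint hωL 0 ((0 : AddCircle ω) + m • (t : AddCircle ω)) =
      ι ((2 * m) • P) ∧ circlePoint hωL δ ((z.re : AddCircle ω) + m • (t : AddCircle ω)) =
      ι ((2 * m + 1) • P) := fun m => by
    rw [zero_add, ← AddCircle.coe_nsmul, ← AddCircle.coe_add, circlePoint_coe, circlePoint_coe,
      nsmul_eq_mul, add_zero, ht, map_nsmul, map_nsmul]
    refine ⟨rfl, ?_⟩
    rw [ofReal_add, add_right_comm, hz2, FA.Mazur.Wp.unif_add, ht, hz, succ_nsmul, add_comm]
  have hlink : ∀ (δ' : ℂ), δ' - conj δ' ∈ L.lattice → ∀ (u : AddCircle ω)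
      (Q : (shortCurve A B).toAffine.Point), circlePoint hωL δ' u = ι Q →
      (∀ φ : ℝ → ℝ → Prop, (∃ x y h, Q = Affine.Point.some x y h ∧ φ x y) ↔
        (circlePoint hωL δ' u ≠ 0 ∧ φ (circleX hωL δ' u) (circleY hωL δ' u))) := by
    intro δ' hδ' u Q hQ φ
    constructor
    · rintro ⟨x, y, h, rfl, hφ⟩
      obtain ⟨h', e⟩ := hιsome x y h
      have hne : circlePoint hωL δ' u ≠ 0 := by rw [hQ, e]; exact Affine.Point.some_ne_zero _
      obtain ⟨h'', e'⟩ := exists_circlePoint_eq h₂ h₃ hωL hδ' hne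
      rw [hQ, e, Affine.Point.some.injEq] at e'
      refine ⟨hne, ?_⟩
      rwa [← Complex.ofReal_injective e'.1, ← Complex.ofReal_injective e'.2]
    · rintro ⟨hne, hφ⟩
      cases Q with
      | zero => exact absurd (hQ.trans (map_zero ι)) hne
      | some x y h =>
        obtain ⟨h', e⟩ := hιsome x y h
        obtain ⟨h'', e'⟩ := exists_circlePoint_eq h₂ h₃ hωL hδ' hne
        rw [hQ, e, Affine.Point.some.injEq] at e'
        exact ⟨x, y, h, rfl, by
          rwa [Complex.ofReal_injective e'.1, Complex.ofReal_injective e'.2]⟩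
  have h00 : (0 : ℂ) - conj 0 ∈ L.lattice := by simp
  refine ⟨?_, fun M => ?_⟩
  · have h0 := (density_circleY h₂ h₃ hωL hper (δ := 0) h00 (by simp) hα
      (0 : AddCircle ω)).congr fun m => (hlink 0 h00 _ _ (hval m).1 fun _ y => 0 < y).symm
    have h1 := (density_circleY h₂ h₃ hωL hper hδc hδδ hα
      (z.re : AddCircle ω)).congr fun m => (hlink δ hδc _ _ (hval m).2 fun _ y => 0 < y).symm
    have h := hasDensity_of_parity
      (p := fun n => ∃ x y h, n • P = Affine.Point.some x y h ∧ 0 < y) h0 h1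
    norm_num at h ⊢
    exact h
  · obtain ⟨d₀, -, hd₀, h0⟩ := density_circleX h₂ h₃ hωL hper (δ := 0) h00 M hα
      (0 : AddCircle ω)
    obtain ⟨d₁, hd₁, -, h1⟩ := density_circleX h₂ h₃ hωL hper hδc M hα (z.re : AddCircle ω)
    obtain ⟨x, hx, hpos⟩ := exists_large A B M
    obtain ⟨s, hs, hsx, -⟩ := exists_real_param L h₂ h₃ hω hper (x := x)
      (y := 2 * √(x ^ 3 + A * x + B))
      (by linear_combination 4 * Real.sq_sqrt (hpos x le_rfl).le)
      (fun u hu => by linarith [hpos u hu.le])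
    have hp : 0 < d₀ := hd₀ ⟨s, by simpa using hs, by simpa [hsx] using hx⟩
    refine ⟨(d₀ + d₁) / 2, by linarith, hasDensity_of_parity
      (h0.congr fun m => (hlink 0 h00 _ _ (hval m).1 fun x _ => M < x).symm)
      (h1.congr fun m => (hlink δ hδc _ _ (hval m).2 fun x _ => M < x).symm)⟩

end FA.RealPoints

end
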