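import Mathlib.Analysis.SpecialFunctions.ArithmeticGeometricMean
import Mathlib.Analysis.SpecialFunctions.ImproperIntegrals
import Mathlib.MeasureTheory.Function.JacobianOneDim
import Mathlib.MeasureTheory.Measure.Lebesgue.Integral

/-!
# Gauss's arithmetic-geometric mean theorem

`∫₀^∞ dx / √((x² + a²)(x² + b²))` does not change when `(a, b)` is replaced by their geometric
and arithmetic means, by Landen's substitution `u = (x - a b / x) / 2`; so it is
`π / (2 agm(a, b))`.
-/

set_option autoImplicit false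

noncomputable section

open MeasureTheory Filter Topology Set
open scoped Real NNReal

namespace FA.RealPoints

/-- The integrand of Gauss's integral. -/
def gaussIntegrand (a b x : ℝ) : ℝ := (√((x ^ 2 + a ^ 2) * (x ^ 2 + b ^ 2)))⁻¹

/-- Gauss's integral. -/
def gaussIntegral (a b : ℝ) : ℝ := ∫ x in Ioi 0, gaussIntegrand a b x

theorem gaussIntegrand_abs (a b x : ℝ) : gaussIntegrand a b |x| = gaussIntegrand a b x := by
  simp only [gaussIntegrand, sq_abs]

theorem gaussIntegrand_self (c x : ℝ) : gaussIntegrand c c x = (x ^ 2 + c ^ 2)⁻¹ := by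
  rw [gaussIntegrand, Real.sqrt_mul_self (by positivity)]

/-- The integral with equal parameters. -/
theorem gaussIntegral_self {c : ℝ} (hc : 0 < c) : gaussIntegral c c = π / (2 * c) := by
  have h := integral_comp_mul_left_Ioi (fun u : ℝ => (1 + u ^ 2)⁻¹) 0 (inv_pos.mpr hc)
  rw [mul_zero, inv_inv, integral_Ioi_inv_one_add_sq, Real.arctan_zero, sub_zero] at h
  have e : ∀ x : ℝ, gaussIntegrand c c x = (c ^ 2)⁻¹ * (1 + (c⁻¹ * x) ^ 2)⁻¹ := fun x => by
    rw [gaussIntegrand_self, mul_pow, inv_pow]
    field_simp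
    ring
  rw [gaussIntegral]
  simp only [e, integral_const_mul, h, smul_eq_mul]
  field_simp

theorem gaussIntegrand_nonneg (a b x : ℝ) : 0 ≤ gaussIntegrand a b x :=
  inv_nonneg.mpr (Real.sqrt_nonneg _)

theorem gaussIntegrand_le {a b a' b' : ℝ} (ha' : 0 < a') (hb' : 0 < b') (h : a' ≤ a)
    (h' : b' ≤ b) (x : ℝ) : gaussIntegrand a b x ≤ gaussIntegrand a' b' x := by
  refine inv_anti₀ (Real.sqrt_pos.mpr (by positivity)) (Real.sqrt_le_sqrt ?_)
  gcongr

theorem integrable_gaussIntegrand {a b : ℝ} (ha : 0 < a) (hb : 0 < b) :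
    Integrable (gaussIntegrand a b) := by
  set c := min a b
  have hc : 0 < c := lt_min ha hb
  have h : Integrable (gaussIntegrand c c) := by
    have h1 := (integrable_inv_one_add_sq.comp_mul_left' (inv_ne_zero hc.ne')).const_mul (c ^ 2)⁻¹
    refine h1.congr (Eventually.of_forall fun x => ?_)
    beta_reduce
    rw [gaussIntegrand_self, mul_pow, inv_pow]
    field_simp
    ring
  refine h.mono' ?_ (Eventually.of_forall fun x => ?_)
  · refine (Continuous.inv₀ (by fun_prop) fun x => ?_).aestronglyMeasurable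
    exact (Real.sqrt_pos.mpr (by positivity)).ne'
  · rw [Real.norm_eq_abs, abs_of_nonneg (gaussIntegrand_nonneg a b x)]
    exact gaussIntegrand_le hc hc (min_le_left a b) (min_le_right a b) x

theorem gaussIntegral_le {a b a' b' : ℝ} (ha' : 0 < a') (hb' : 0 < b') (h : a' ≤ a)
    (h' : b' ≤ b) : gaussIntegral a b ≤ gaussIntegral a' b' :=
  integral_mono (integrable_gaussIntegrand (ha'.trans_le h) (hb'.trans_le h')).integrableOn
    (integrable_gaussIntegrand ha' hb').integrableOn (gaussIntegrand_le ha' hb' h h')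

/-- **Landen's substitution.** -/
theorem gaussIntegral_step {a b : ℝ} (ha : 0 < a) (hb : 0 < b) :
    gaussIntegral (√(a * b)) ((a + b) / 2) = gaussIntegral a b := by
  set φ : ℝ → ℝ := fun x => (x - a * b / x) / 2
  have hab : 0 < a * b := mul_pos ha hb
  have hder : ∀ x ∈ Ioi (0 : ℝ), HasDerivWithinAt φ ((1 + a * b / x ^ 2) / 2) (Ioi 0) x := by
    intro x hx
    have hx' : x ≠ 0 := (mem_Ioi.mp hx).ne'
    have h1 := ((hasDerivAt_id' x).sub
      ((hasDerivAt_inv hx').const_mul (a * b))).div_const 2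
    refine (h1.congr_deriv (by field_simp; ring)).hasDerivWithinAt
  have hmono : StrictMonoOn φ (Ioi 0) := by
    intro x hx y hy hxy
    have hx' : (0 : ℝ) < x := hx
    have := div_lt_div_of_pos_left hab hx' hxy
    simp only [φ]
    linarith
  have himg : φ '' Ioi 0 = univ := by
    refine eq_univ_of_forall fun u => ⟨u + √(u ^ 2 + a * b), ?_, ?_⟩
    · have h1 : |u| < √(u ^ 2 + a * b) := by
        rw [← Real.sqrt_sq_eq_abs]; exact Real.sqrt_lt_sqrt (sq_nonneg u) (by linarith)
      show (0 : ℝ) < _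
      linarith [neg_abs_le u]
    · have h2 := Real.sq_sqrt (show 0 ≤ u ^ 2 + a * b by positivity)
      have h3 : u + √(u ^ 2 + a * b) ≠ 0 := by
        intro e
        have e' : √(u ^ 2 + a * b) = -u := by linarith
        rw [e'] at h2
        linarith
      simp only [φ]
      field_simp
      linear_combination h2
  have h := integral_image_eq_integral_abs_deriv_smul measurableSet_Ioi hder hmono.injOn
    (gaussIntegrand (√(a * b)) ((a + b) / 2))
  rw [himg, setIntegral_univ] at h
  have h2 : ∫ x, gaussIntegrand (√(a * b)) ((a + b) / 2) x =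
      2 * gaussIntegral (√(a * b)) ((a + b) / 2) := by
    rw [gaussIntegral, ← integral_comp_abs]
    simp only [gaussIntegrand_abs]
  have h3 : ∫ x in Ioi (0 : ℝ), |(1 + a * b / x ^ 2) / 2| •
      gaussIntegrand (√(a * b)) ((a + b) / 2) (φ x) = 2 * gaussIntegral a b := by
    rw [gaussIntegral, ← integral_const_mul]
    refine setIntegral_congr_fun measurableSet_Ioi fun x hx => ?_
    have hx' : (0 : ℝ) < x := hx
    have e1 : φ x ^ 2 + √(a * b) ^ 2 = ((x + a * b / x) / 2) ^ 2 := by
      rw [Real.sq_sqrt hab.le]; simp only [φ]; field_simp; ring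
    have e2 : φ x ^ 2 + ((a + b) / 2) ^ 2 =
        (x ^ 2 + a ^ 2) * (x ^ 2 + b ^ 2) / (2 * x) ^ 2 := by
      simp only [φ]; field_simp; ring
    simp only [gaussIntegrand, smul_eq_mul]
    rw [e1, e2, Real.sqrt_mul (sq_nonneg _), Real.sqrt_sq (by positivity),
      Real.sqrt_div (by positivity), Real.sqrt_sq (by positivity), abs_of_pos (by positivity)]
    have : (0 : ℝ) < √((x ^ 2 + a ^ 2) * (x ^ 2 + b ^ 2)) := Real.sqrt_pos.mpr (by positivity)
    field_simp
    try ring
  rw [h2, h3] at h
  linarith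

/-- **Gauss's theorem.** -/
theorem gaussIntegral_eq_agm {a b : ℝ≥0} (ha : 0 < a) (hb : 0 < b) :
    gaussIntegral a b = π / (2 * NNReal.agm a b) := by
  have hpos : ∀ n, 0 < (NNReal.agmSequences a b n).1 ∧ 0 < (NNReal.agmSequences a b n).2 := by
    intro n
    induction n with
    | zero =>
      rw [NNReal.agmSequences_zero]
      exact ⟨NNReal.sqrt_pos.mpr (mul_pos ha hb), half_pos (add_pos ha hb)⟩
    | succ n ih =>
      rw [NNReal.agmSequences_succ']
      exact ⟨NNReal.sqrt_pos.mpr (mul_pos ih.1 ih.2), half_pos (add_pos ih.1 ih.2)⟩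
  have hinv : ∀ n, gaussIntegral (NNReal.agmSequences a b n).1 (NNReal.agmSequences a b n).2 =
      gaussIntegral a b := by
    intro n
    induction n with
    | zero =>
      rw [NNReal.agmSequences_zero]
      push_cast
      exact gaussIntegral_step (NNReal.coe_pos.mpr ha) (NNReal.coe_pos.mpr hb)
    | succ n ih =>
      rw [NNReal.agmSequences_succ', ← ih]
      push_cast
      exact gaussIntegral_step (NNReal.coe_pos.mpr (hpos n).1) (NNReal.coe_pos.mpr (hpos n).2)
  have hM : (0 : ℝ) < NNReal.agm a b := NNReal.coe_pos.mpr (NNReal.agm_pos ha hb)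
  have hlim : ∀ {u : ℕ → ℝ≥0}, Tendsto u atTop (𝓝 (NNReal.agm a b)) →
      Tendsto (fun n => π / (2 * (u n : ℝ))) atTop (𝓝 (π / (2 * NNReal.agm a b))) := fun hu =>
    tendsto_const_nhds.div ((NNReal.tendsto_coe.mpr hu).const_mul 2)
      (mul_ne_zero two_ne_zero hM.ne')
  refine le_antisymm (ge_of_tendsto' (hlim NNReal.tendsto_agmSequences_fst_agm) fun n => ?_)
    (le_of_tendsto' (hlim NNReal.tendsto_agmSequences_snd_agm) fun n => ?_)
  · have h1 := NNReal.coe_pos.mpr (hpos n).1
    rw [← hinv n, ← gaussIntegral_self h1]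
    exact gaussIntegral_le h1 h1 le_rfl
      (NNReal.coe_le_coe.mpr (NNReal.agmSequences_fst_le_snd n n))
  · have h2 := NNReal.coe_pos.mpr (hpos n).2
    rw [← hinv n, ← gaussIntegral_self h2]
    exact gaussIntegral_le (NNReal.coe_pos.mpr (hpos n).1) h2
      (NNReal.coe_le_coe.mpr (NNReal.agmSequences_fst_le_snd n n)) le_rfl

end FA.RealPoints

end
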