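import Fermat.Agent.RealPoints.RealPeriod
import Fermat.Agent.RealPoints.Equidistribution

/-!
# The law of the multiples on the identity component

The multiples of a point of infinite order on the identity component are distributed by the
invariant differential `dx / y`.
-/

set_option autoImplicit false
set_option linter.style.haveILetI false

noncomputable section

open Complex Filter Topology MeasureTheory Set WeierstrassCurve AddCircle
open scoped ComplexConjugate Real

namespace FA.RealPoints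

variable {L : PeriodPair} {a b ω e : ℝ} (h₂ : L.g₂ = a) (h₃ : L.g₃ = b) [hω : Fact (0 < ω)]
  (hωL : (ω : ℂ) ∈ L.lattice) (hper : ∀ s : ℝ, (s : ℂ) ∈ L.lattice ↔ ∃ m : ℤ, s = m * ω)
  (he : 4 * e ^ 3 - a * e - b = 0) (hbeyond : ∀ t > e, 0 < 4 * t ^ 3 - a * t - b)

include h₂ h₃ hper he hbeyond in
/-- The relative length of the parameters with abscissa above `M`. -/
theorem haar_circleX {M : ℝ} (hM : e ≤ M) :
    (haarAddCircle : Measure (AddCircle ω)).real
      {x | circlePoint hωL 0 x ≠ 0 ∧ circleX hωL 0 x ∈ Ioi M} =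
    2 * volume.real {s ∈ Ioo 0 (ω / 2) | M < (L.weierstrassP (s : ℂ)).re} / ω := by
  set U := {x | circlePoint hωL 0 x ≠ 0 ∧ circleX hωL 0 x ∈ Ioi M}
  set T := {s ∈ Ioo 0 (ω / 2) | M < (L.weierstrassP (s : ℂ)).re}
  have hU : IsOpen U := isOpen_region hωL (g := circleX hωL 0)
    (F := fun s : ℝ => (L.weierstrassP (s + 0)).re) (circleX_coe hωL 0)
    (fun s hs => continuousAt_wp_re hs) isOpen_Ioi
  have hmem : ∀ s : ℝ, (s : AddCircle ω) ∈ U ↔
      (s : ℂ) ∉ L.lattice ∧ M < (L.weierstrassP (s : ℂ)).re := fun s => by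
    show circlePoint hωL 0 (s : AddCircle ω) ≠ 0 ∧ M < circleX hωL 0 (s : AddCircle ω) ↔ _
    rw [circlePoint_coe, circleX_coe, add_zero, ne_eq, FA.Mazur.Wp.unif_eq_zero_iff]
  have hmeas : MeasurableSet T := by
    convert measurableSet_param L (ω := ω) M using 1
    ext s
    exact ⟨fun h => ⟨h.1, h.2,
        notMem_lattice_of_Ioo L hω.out hper ⟨h.1.1, by linarith [h.1.2, hω.out]⟩⟩,
      fun h => ⟨h.1, h.2.1⟩⟩
  have hset : ((↑) : ℝ → AddCircle ω) ⁻¹' U ∩ Ioc (-(ω / 2)) (-(ω / 2) + ω) = T ∪ -T := by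
    have hhalf := wp_half_period L h₂ h₃ hω.out hper he hbeyond
    refine Subset.antisymm ?_ ?_
    · rintro s ⟨hsU, hs1, hs2⟩
      obtain ⟨hs, hsM⟩ := (hmem s).mp hsU
      rcases lt_trichotomy s 0 with h | h | h
      · refine Or.inr ⟨⟨by linarith, by linarith⟩, ?_⟩
        rw [ofReal_neg, L.weierstrassP_neg]; exact hsM
      · exact absurd ((hper s).mpr ⟨0, by simp [h]⟩) hs
      · refine Or.inl ⟨⟨h, lt_of_le_of_ne (by linarith) fun e' => ?_⟩, hsM⟩
        rw [e', hhalf] at hsM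
        linarith
    · rintro s (⟨⟨h0, h1⟩, hM'⟩ | ⟨⟨h0, h1⟩, hM'⟩)
      · exact ⟨(hmem s).mpr
          ⟨notMem_lattice_of_Ioo L hω.out hper ⟨h0, by linarith⟩, hM'⟩, by linarith, by linarith⟩
      · refine ⟨(hmem s).mpr ⟨fun h => notMem_lattice_of_Ioo L hω.out hper (s := -s)
          ⟨h0, by linarith⟩ (by rw [ofReal_neg]; exact neg_mem h), ?_⟩, by linarith, by linarith⟩
        rwa [ofReal_neg, L.weierstrassP_neg] at hM'
  have hdisj : Disjoint T (-T) := disjoint_left.mpr fun s hs hs' => by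
    have h1 := hs.1.1
    have h2 : 0 < -s := hs'.1.1
    linarith
  have hfin : volume T ≠ ⊤ := (lt_of_le_of_lt (measure_mono fun s hs => hs.1)
    measure_Ioo_lt_top).ne
  have h1 : (volume : Measure (AddCircle ω)) U = volume (T ∪ -T) := by
    rw [← (AddCircle.measurePreserving_mk ω (-(ω / 2))).measure_preimage
        hU.measurableSet.nullMeasurableSet,
      Measure.restrict_apply (hU.measurableSet.preimage AddCircle.measurable_mk'), hset]
  rw [measure_union hdisj hmeas.neg, Measure.measure_neg, volume_eq_smul_haarAddCircle,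
    Measure.smul_apply, smul_eq_mul] at h1
  have h2 := congrArg ENNReal.toReal h1
  rw [ENNReal.toReal_mul, ENNReal.toReal_ofReal hω.out.le, ENNReal.toReal_add hfin hfin] at h2
  rw [eq_div_iff hω.out.ne', Measure.real, Measure.real]
  linarith

omit hω in
/-- **The distribution of the multiples on the identity component.** -/
theorem multiples_distribution {A B : ℝ} [(shortCurve A B).IsElliptic]
    {P : (shortCurve A B).toAffine.Point} (hP : ¬IsOfFinAddOrder P)
    (hid : OnIdentityComponent P) {e M : ℝ} (he : e ^ 3 + A * e + B = 0)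
    (hbeyond : ∀ t > e, 0 < t ^ 3 + A * t + B) (hM : e ≤ M) :
    HasDensity (fun n => ∃ x y h, n • P = Affine.Point.some x y h ∧ M < x)
      ((∫ x in Ioi M, (√(x ^ 3 + A * x + B))⁻¹) /
        ∫ x in Ioi e, (√(x ^ 3 + A * x + B))⁻¹) := by
  obtain ⟨L, ι, h₂, h₃, hιinj, hιsome⟩ := exists_lattice_hom A B
  obtain ⟨ω, hω, hper⟩ := exists_real_period L h₂ h₃
  haveI := Fact.mk hω
  have hωL : (ω : ℂ) ∈ L.lattice := (hper ω).mpr ⟨1, by simp⟩
  have he4 : 4 * e ^ 3 - (-4 * A) * e - (-4 * B) = 0 := by linear_combination 4 * he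
  have hb4 : ∀ t > e, 0 < 4 * t ^ 3 - (-4 * A) * t - (-4 * B) := fun t ht => by
    linarith [hbeyond t ht]
  -- a real parameter of the point
  obtain ⟨t, ht⟩ : ∃ t : ℝ, FA.Mazur.Wp.unif L (t : ℂ) = ι P := by
    cases P with
    | zero => exact absurd IsOfFinAddOrder.zero hP
    | some x y h =>
      have he' := (Affine.equation_iff x y).mp h.1
      simp only [zero_mul, add_zero] at he'
      obtain ⟨s, hs, hsx, hsy⟩ := exists_real_param L h₂ h₃ hω hper (x := x) (y := 2 * y)
        (by linear_combination 4 * he') (fun u hu => by linarith [hid x y h rfl u hu])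
      obtain ⟨h', e'⟩ := hιsome x y h
      refine ⟨s, ?_⟩
      rw [e', FA.Mazur.Wp.unif_of_notMem L hs, Affine.Point.some.injEq]
      exact ⟨hsx, by rw [hsy]; push_cast; ring⟩
  have hn : ∀ n : ℤ, FA.Mazur.Wp.unif L ((n * t : ℝ) : ℂ) = ι (n • P) := fun n => by
    rw [← FA.Mazur.Wp.unifHom_apply, ofReal_mul, ofReal_intCast, ← zsmul_eq_mul, map_zsmul,
      FA.Mazur.Wp.unifHom_apply, ht, map_zsmul]
  have hα : ∀ k : ℤ, k ≠ 0 → k • (t : AddCircle ω) ≠ 0 := fun k hk e' => by
    obtain ⟨m, hm⟩ := (AddCircle.coe_eq_zero_iff ω).mp ((AddCircle.coe_zsmul (p := ω) (n := k)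
      (x := t)).trans e')
    rw [zsmul_eq_mul, zsmul_eq_mul] at hm
    have h0 := (hn k).symm.trans (FA.Mazur.Wp.unif_of_mem L ((hper _).mpr ⟨m, hm.symm⟩))
    rw [map_eq_zero_iff ι hιinj] at h0
    exact hP (isOfFinAddOrder_iff_zsmul_eq_zero.mpr ⟨k, hk, h0⟩)
  have h00 : (0 : ℂ) - conj 0 ∈ L.lattice := by simp
  have hd := (density_coord hωL hper (δ := 0) (g := circleX hωL 0)
    (F := fun s : ℝ => (L.weierstrassP (s + 0)).re) (circleX_coe hωL 0)
    (fun s hs => continuousAt_wp_re hs) M (finite_level (L := L) (M : ℂ)).1 (fun x hx => by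
      by_cases h0 : circlePoint hωL 0 x = 0
      · exact Or.inl h0
      obtain ⟨hn', e'⟩ := exists_circlePoint_eq h₂ h₃ hωL h00 h0
      have hx' : circleX hωL 0 x = M := hx.resolve_left h0
      exact Or.inr ⟨_, hx' ▸ hn', by simp only [e', hx']⟩) hα (0 : AddCircle ω)).2.2
  have hkey : ∀ N : ℝ, e ≤ N → volume.real {s ∈ Ioo 0 (ω / 2) | N < (L.weierstrassP (s : ℂ)).re}
      = 2⁻¹ * ∫ x in Ioi N, (√(x ^ 3 + A * x + B))⁻¹ := by
    intro N hN
    rw [volume_param L h₂ h₃ hω hper he4 hb4 hN, ← integral_const_mul]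
    refine setIntegral_congr_fun measurableSet_Ioi fun x hx => ?_
    rw [show 4 * x ^ 3 - -4 * A * x - -4 * B = 2 ^ 2 * (x ^ 3 + A * x + B) by ring,
      Real.sqrt_mul (by norm_num), Real.sqrt_sq zero_le_two, mul_inv]
  have hω2 := half_period_eq L h₂ h₃ hω hper he4 hb4
  rw [← volume_param L h₂ h₃ hω hper he4 hb4 le_rfl, hkey e le_rfl] at hω2
  rw [haar_circleX h₂ h₃ hωL hper he4 hb4 hM, hkey M hM] at hd
  rw [show (∫ x in Ioi M, (√(x ^ 3 + A * x + B))⁻¹) / ∫ x in Ioi e, (√(x ^ 3 + A * x + B))⁻¹ =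
    2 * (2⁻¹ * ∫ x in Ioi M, (√(x ^ 3 + A * x + B))⁻¹) / ω by
      rw [show ω = 2 * (ω / 2) by ring, hω2]; field_simp]
  refine hd.congr fun n => ?_
  rw [zero_add]
  have hval : circlePoint hωL 0 (n • (t : AddCircle ω)) = ι (n • P) := by
    rw [← AddCircle.coe_nsmul, circlePoint_coe, nsmul_eq_mul, add_zero, ← natCast_zsmul, ← hn,
      Int.cast_natCast]
  constructor
  · rintro ⟨hne, hx⟩
    obtain ⟨h'', e''⟩ := exists_circlePoint_eq h₂ h₃ hωL h00 hne
    rw [hval] at e''
    generalize n • P = Q at e'' hne hval ⊢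
    cases Q with
    | zero => exact absurd (hval.trans (map_zero ι)) hne
    | some x y h =>
      obtain ⟨h', e'⟩ := hιsome x y h
      rw [e', Affine.Point.some.injEq] at e''
      exact ⟨x, y, h, rfl, by rw [Complex.ofReal_injective e''.1]; exact hx⟩
  · rintro ⟨x, y, h, hQ, hx⟩
    obtain ⟨h', e'⟩ := hιsome x y h
    rw [hQ, e'] at hval
    have hne : circlePoint hωL 0 (n • (t : AddCircle ω)) ≠ 0 := by
      rw [hval]; exact Affine.Point.some_ne_zero _
    obtain ⟨h'', e''⟩ := exists_circlePoint_eq h₂ h₃ hωL h00 hne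
    rw [hval, Affine.Point.some.injEq] at e''
    exact ⟨hne, by rwa [← Complex.ofReal_injective e''.1]⟩

end FA.RealPoints

end
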