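import Fermat.Agent.RealPoints.Structure
import Fermat.Agent.RealPoints.GaussAGM
import Fermat.Agent.Root.SummaryJBijection
import Mathlib.Analysis.Complex.RealDeriv

/-!
# The real period

`℘` maps `(0, ω / 2)` bijectively onto `(e, ∞)`, `e` the largest real root, with derivative
`± √(4 x³ - g₂ x - g₃)`; so lengths of sets of real parameters are integrals of `dx / y`, and with
three real roots the real period is `π` over an arithmetic-geometric mean.
-/

set_option autoImplicit false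
set_option linter.style.haveILetI false

noncomputable section

open Complex Filter Topology MeasureTheory Set
open scoped ComplexConjugate Real

namespace FA.RealPoints

variable (L : PeriodPair) {a b ω e : ℝ} (h₂ : L.g₂ = a) (h₃ : L.g₃ = b) (hω : 0 < ω)
  (hper : ∀ s : ℝ, (s : ℂ) ∈ L.lattice ↔ ∃ m : ℤ, s = m * ω)
  (he : 4 * e ^ 3 - a * e - b = 0) (hbeyond : ∀ t > e, 0 < 4 * t ^ 3 - a * t - b)

include h₂ h₃ in
/-- The cubic of a real lattice has no double root. -/
theorem real_discriminant_ne_zero : 4 * (-a / 4) ^ 3 + 27 * (-b / 4) ^ 2 ≠ 0 := by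
  intro h
  refine FA.Summary.lattice_discriminant_ne_zero L ?_
  rw [h₂, h₃]
  have : a ^ 3 - 27 * b ^ 2 = 0 := by linear_combination (-16 : ℝ) * h
  exact_mod_cast this

include h₂ h₃ in
/-- The equation of the curve at a real parameter. -/
theorem deriv_sq_real {s : ℝ} (hs : (s : ℂ) ∉ L.lattice) :
    (L.derivWeierstrassP s).re ^ 2 =
      4 * (L.weierstrassP s).re ^ 3 - a * (L.weierstrassP s).re - b := by
  have h := L.derivWeierstrassP_sq _ hs
  rw [h₂, h₃, ← (wp_ofReal L h₂ h₃ s).1, ← (wp_ofReal L h₂ h₃ s).2] at h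
  exact_mod_cast h

include hω hper in
theorem notMem_lattice_of_Ioo {s : ℝ} (hs : s ∈ Ioo 0 ω) : (s : ℂ) ∉ L.lattice := by
  intro h
  obtain ⟨m, hm⟩ := (hper s).mp h
  have h2 : (0 : ℝ) < m := (mul_pos_iff_of_pos_right hω).mp (hm ▸ hs.1)
  have h3 : (m : ℝ) < 1 := (mul_lt_iff_lt_one_left hω).mp (hm ▸ hs.2)
  have h4 : (0 : ℤ) < m := by exact_mod_cast h2
  have h5 : m < 1 := by exact_mod_cast h3
  omega

include h₂ h₃ hper in
/-- At the half period the ordinate vanishes. -/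
theorem deriv_half_period : (L.derivWeierstrassP ((ω / 2 : ℝ) : ℂ)).re = 0 := by
  have h1 := L.derivWeierstrassP_add_coe ((-(ω / 2) : ℝ) : ℂ)
    ⟨(ω : ℂ), (hper ω).mpr ⟨1, by simp⟩⟩
  simp only [ofReal_neg, L.derivWeierstrassP_neg] at h1
  rw [show -((ω / 2 : ℝ) : ℂ) + (ω : ℂ) = ((ω / 2 : ℝ) : ℂ) by push_cast; ring] at h1
  have h2 := (wp_ofReal L h₂ h₃ (ω / 2)).2
  rw [CharZero.eq_neg_self_iff.mp h1]
  simp

include h₂ h₃ hper in
/-- Real parameters with equal abscissa differ by a sign modulo the period. -/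
theorem param_eq_or_neg {s t : ℝ} (hs : (s : ℂ) ∉ L.lattice) (ht : (t : ℂ) ∉ L.lattice)
    (h : (L.weierstrassP s).re = (L.weierstrassP t).re) :
    (∃ m : ℤ, s - t = m * ω) ∨ ∃ m : ℤ, s + t = m * ω := by
  have hwp : L.weierstrassP s = L.weierstrassP t := by
    rw [← (wp_ofReal L h₂ h₃ s).1, ← (wp_ofReal L h₂ h₃ t).1, h]
  have hsq : L.derivWeierstrassP s ^ 2 = L.derivWeierstrassP t ^ 2 := by
    rw [L.derivWeierstrassP_sq _ hs, L.derivWeierstrassP_sq _ ht, hwp]
  rcases sq_eq_sq_iff_eq_or_eq_neg.mp hsq with e' | e'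
  · refine Or.inl ((hper _).mp ?_)
    rw [ofReal_sub, ← FA.Mazur.Wp.unif_eq_unif_iff, FA.Mazur.Wp.unif_of_notMem L hs,
      FA.Mazur.Wp.unif_of_notMem L ht]
    simp only [hwp, e']
  · refine Or.inr ((hper _).mp ?_)
    have ht' : -(t : ℂ) ∉ L.lattice := fun h' => ht (by simpa using neg_mem h')
    rw [ofReal_add, show (s : ℂ) + t = (s : ℂ) - -(t : ℂ) by ring,
      ← FA.Mazur.Wp.unif_eq_unif_iff, FA.Mazur.Wp.unif_of_notMem L hs,
      FA.Mazur.Wp.unif_of_notMem L ht']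
    simp only [hwp, e', L.weierstrassP_neg, L.derivWeierstrassP_neg]

include h₂ h₃ hω hper he hbeyond in
/-- The abscissa at the half period is the largest root. -/
theorem wp_half_period : (L.weierstrassP ((ω / 2 : ℝ) : ℂ)).re = e := by
  have hs : ((ω / 2 : ℝ) : ℂ) ∉ L.lattice :=
    notMem_lattice_of_Ioo L hω hper ⟨by linarith, by linarith⟩
  have h := deriv_sq_real L h₂ h₃ hs
  rw [deriv_half_period L h₂ h₃ hper] at h
  rcases lt_trichotomy (L.weierstrassP ((ω / 2 : ℝ) : ℂ)).re e with hlt | heq | hgt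
  · exfalso
    have hX₀ : ∀ t ≥ |e| + 1, 0 < 4 * t ^ 3 - a * t - b := fun t ht =>
      hbeyond t (by linarith [le_abs_self e])
    have hnn : ∀ t > (L.weierstrassP ((ω / 2 : ℝ) : ℂ)).re,
        0 ≤ t ^ 3 + -a / 4 * t + -b / 4 := fun t ht => by
      have := cubic_pos_of_param L h₂ h₃ hω hper hX₀ hs ht
      linarith
    have := pos_of_nonneg (real_discriminant_ne_zero L h₂ h₃) hnn hlt
    linarith
  · exact heq
  · have := hbeyond _ hgt
    linarith

include h₂ h₃ hω hper in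
/-- On `(0, ω / 2)` the abscissa is injective. -/
theorem wp_re_injOn : InjOn (fun s : ℝ => (L.weierstrassP s).re) (Ioo 0 (ω / 2)) := by
  intro s hs t ht h
  have hs' := notMem_lattice_of_Ioo L hω hper (s := s) ⟨hs.1, by linarith [hs.2]⟩
  have ht' := notMem_lattice_of_Ioo L hω hper (s := t) ⟨ht.1, by linarith [ht.2]⟩
  rcases param_eq_or_neg L h₂ h₃ hper hs' ht' h with ⟨m, hm⟩ | ⟨m, hm⟩
  · have h1 : (-1 : ℝ) < m := by
      by_contra h'
      nlinarith [hs.1, ht.2, not_lt.mp h']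
    have h2 : (m : ℝ) < 1 := by
      by_contra h'
      nlinarith [hs.2, ht.1, not_lt.mp h']
    have h3 : (-1 : ℤ) < m := by exact_mod_cast h1
    have h4 : m < 1 := by exact_mod_cast h2
    obtain rfl : m = 0 := by omega
    simpa [sub_eq_zero] using hm
  · exfalso
    have h1 : (0 : ℝ) < m := (mul_pos_iff_of_pos_right hω).mp (hm ▸ add_pos hs.1 ht.1)
    have h2 : (m : ℝ) < 1 :=
      (mul_lt_iff_lt_one_left hω).mp (hm ▸ by linarith [hs.2, ht.2])
    have h3 : (0 : ℤ) < m := by exact_mod_cast h1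
    have h4 : m < 1 := by exact_mod_cast h2
    omega

include h₂ h₃ hω hper he hbeyond in
/-- **The parameters above a bound correspond to the abscissae above it.** -/
theorem image_wp {M : ℝ} (hM : e ≤ M) :
    (fun s : ℝ => (L.weierstrassP s).re) ''
      {s ∈ Ioo 0 (ω / 2) | M < (L.weierstrassP s).re} = Ioi M := by
  refine Subset.antisymm (by rintro _ ⟨s, ⟨-, hs⟩, rfl⟩; exact hs) fun X hX => ?_
  have hXe : e < X := hM.trans_lt hX
  obtain ⟨s, hs, hsx, -⟩ := exists_real_param L h₂ h₃ hω hper (x := X)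
    (y := √(4 * X ^ 3 - a * X - b)) (Real.sq_sqrt (hbeyond X hXe).le)
    (fun u hu => hbeyond u (hXe.trans hu))
  -- move into `(0, ω)`, then reflect
  have hl : ((-(⌊s / ω⌋ : ℝ) * ω : ℝ) : ℂ) ∈ L.lattice :=
    (hper _).mpr ⟨-⌊s / ω⌋, by push_cast; ring⟩
  set v := s + -(⌊s / ω⌋ : ℝ) * ω with hv
  have hv0 : 0 < v := by
    have h1 := Int.floor_le (s / ω)
    rw [le_div_iff₀ hω] at h1
    rcases h1.eq_or_lt with e' | h1
    · exact absurd ((hper s).mpr ⟨⌊s / ω⌋, e'.symm⟩) hs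
    · linarith
  have hvω : v < ω := by
    have h1 := Int.lt_floor_add_one (s / ω)
    rw [div_lt_iff₀ hω] at h1
    linarith
  have hvX : (L.weierstrassP v).re = X := by
    rw [hv, ofReal_add, (FA.Mazur.Wp.wp_sub_coe L hl).1, hsx, ofReal_re]
  have hhalf := wp_half_period L h₂ h₃ hω hper he hbeyond
  rcases lt_trichotomy v (ω / 2) with hlt | heq | hgt
  · exact ⟨v, ⟨⟨hv0, hlt⟩, by rw [hvX]; exact hX⟩, hvX⟩
  · rw [heq, hhalf] at hvX
    exact absurd hvX hXe.ne
  · have hωl : (ω : ℂ) ∈ L.lattice := (hper ω).mpr ⟨1, by simp⟩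
    have e' : (L.weierstrassP ((ω - v : ℝ) : ℂ)).re = X := by
      rw [ofReal_sub, show (ω : ℂ) - v = -(v : ℂ) + ω by ring,
        (FA.Mazur.Wp.wp_sub_coe L hωl).1, L.weierstrassP_neg, hvX]
    exact ⟨ω - v, ⟨⟨by linarith, by linarith⟩, by rw [e']; exact hX⟩, e'⟩

include h₂ h₃ hω hper he hbeyond in
/-- Off the endpoints every parameter of `(0, ω / 2)` gives more than the largest root. -/
theorem lt_wp_of_Ioo {s : ℝ} (hs : s ∈ Ioo 0 (ω / 2)) : e < (L.weierstrassP s).re := by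
  have hs' := notMem_lattice_of_Ioo L hω hper (s := s) ⟨hs.1, by linarith [hs.2]⟩
  rcases lt_trichotomy (L.weierstrassP s).re e with hlt | heq | hgt
  · exfalso
    have hX₀ : ∀ t ≥ |e| + 1, 0 < 4 * t ^ 3 - a * t - b := fun t ht =>
      hbeyond t (by linarith [le_abs_self e])
    have hnn : ∀ t > (L.weierstrassP s).re, 0 ≤ t ^ 3 + -a / 4 * t + -b / 4 := fun t ht => by
      have := cubic_pos_of_param L h₂ h₃ hω hper hX₀ hs' ht
      linarith
    have := pos_of_nonneg (real_discriminant_ne_zero L h₂ h₃) hnn hlt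
    linarith
  · exfalso
    have hh := notMem_lattice_of_Ioo L hω hper (s := ω / 2) ⟨by linarith, by linarith⟩
    rcases param_eq_or_neg L h₂ h₃ hper hs' hh
      (heq.trans (wp_half_period L h₂ h₃ hω hper he hbeyond).symm) with ⟨m, hm⟩ | ⟨m, hm⟩
    · have h1 : (m : ℝ) < 0 := by nlinarith [hs.2]
      have h2 : (-1 : ℝ) < m := by nlinarith [hs.1]
      have h3 : m < 0 := by exact_mod_cast h1
      have h4 : (-1 : ℤ) < m := by exact_mod_cast h2
      omega
    · have h1 : (0 : ℝ) < m := by nlinarith [hs.1]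
      have h2 : (m : ℝ) < 1 := by nlinarith [hs.2]
      have h3 : (0 : ℤ) < m := by exact_mod_cast h1
      have h4 : m < 1 := by exact_mod_cast h2
      omega
  · exact hgt

theorem measurableSet_param (M : ℝ) :
    MeasurableSet {s ∈ Ioo 0 (ω / 2) | M < (L.weierstrassP (s : ℂ)).re ∧ (s : ℂ) ∉ L.lattice} := by
  have ho : IsOpen ({s : ℝ | (s : ℂ) ∉ L.lattice} ∩
      (fun s : ℝ => (L.weierstrassP s).re) ⁻¹' Ioi M) :=
    ContinuousOn.isOpen_inter_preimage (fun s hs => (Complex.continuous_re.continuousAt.comp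
      ((L.analyticOnNhd_weierstrassP _ hs).continuousAt.comp
        Complex.continuous_ofReal.continuousAt)).continuousWithinAt)
      (L.isClosed_lattice.isOpen_compl.preimage Complex.continuous_ofReal) isOpen_Ioi
  convert measurableSet_Ioo.inter ho.measurableSet (α := ℝ) using 1
  ext s
  exact ⟨fun h => ⟨h.1, h.2.2, h.2.1⟩, fun h => ⟨h.1, h.2.2, h.2.1⟩⟩

include h₂ h₃ hω hper he hbeyond in
/-- **Lengths of parameters are integrals of `dx / y`.** -/
theorem volume_param {M : ℝ} (hM : e ≤ M) :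
    volume.real {s ∈ Ioo 0 (ω / 2) | M < (L.weierstrassP (s : ℂ)).re} =
      ∫ x in Ioi M, (√(4 * x ^ 3 - a * x - b))⁻¹ := by
  have hmeas : MeasurableSet {s ∈ Ioo 0 (ω / 2) | M < (L.weierstrassP (s : ℂ)).re} := by
    convert measurableSet_param L (ω := ω) M using 1
    ext s
    exact ⟨fun h => ⟨h.1, h.2, notMem_lattice_of_Ioo L hω hper ⟨h.1.1, by linarith [h.1.2]⟩⟩,
      fun h => ⟨h.1, h.2.1⟩⟩
  set T := {s ∈ Ioo 0 (ω / 2) | M < (L.weierstrassP (s : ℂ)).re}
  have hder : ∀ s ∈ T, HasDerivWithinAt (fun s : ℝ => (L.weierstrassP s).re)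
      ((L.derivWeierstrassP s).re) T s := fun s hs =>
    ((FA.Mazur.Wp.hasDerivAt_wp L (notMem_lattice_of_Ioo L hω hper
      ⟨hs.1.1, by linarith [hs.1.2]⟩)).real_of_complex).hasDerivWithinAt
  have h := integral_image_eq_integral_abs_deriv_smul hmeas hder
    ((wp_re_injOn L h₂ h₃ hω hper).mono fun s hs => hs.1)
    (fun x => (√(4 * x ^ 3 - a * x - b))⁻¹)
  rw [image_wp L h₂ h₃ hω hper he hbeyond hM] at h
  rw [h, setIntegral_congr_fun hmeas (g := fun _ => (1 : ℝ)) fun s hs => ?_]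
  · simp
  · have hs' := notMem_lattice_of_Ioo L hω hper (s := s) ⟨hs.1.1, by linarith [hs.1.2]⟩
    have hpos := hbeyond _ (lt_wp_of_Ioo L h₂ h₃ hω hper he hbeyond hs.1)
    simp only [smul_eq_mul]
    rw [← deriv_sq_real L h₂ h₃ hs', Real.sqrt_sq_eq_abs, mul_inv_cancel₀]
    intro e'
    rw [abs_eq_zero] at e'
    have := deriv_sq_real L h₂ h₃ hs'
    rw [e'] at this
    linarith

include h₂ h₃ hω hper he hbeyond in
/-- **Half the real period is the complete integral.** -/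
theorem half_period_eq : ω / 2 = ∫ x in Ioi e, (√(4 * x ^ 3 - a * x - b))⁻¹ := by
  rw [← volume_param L h₂ h₃ hω hper he hbeyond le_rfl,
    show {s ∈ Ioo 0 (ω / 2) | e < (L.weierstrassP (s : ℂ)).re} = Ioo 0 (ω / 2) from
      Subset.antisymm (fun s hs => hs.1)
        fun s hs => ⟨hs, lt_wp_of_Ioo L h₂ h₃ hω hper he hbeyond hs⟩,
    Real.volume_real_Ioo_of_le (by linarith), sub_zero]

/-- The complete integral with three real roots is Gauss's integral. -/
theorem integral_three_roots {e₁ e₂ e₃ : ℝ} (h12 : e₁ < e₂) (h23 : e₂ < e₃) :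
    ∫ x in Ioi e₃, (√(4 * ((x - e₁) * (x - e₂) * (x - e₃))))⁻¹ =
      gaussIntegral √(e₃ - e₁) √(e₃ - e₂) := by
  have hder : ∀ u ∈ Ioi (0 : ℝ), HasDerivWithinAt (fun u => e₃ + u ^ 2) (2 * u) (Ioi 0) u :=
    fun u _ => by simpa using ((hasDerivAt_pow 2 u).const_add e₃).hasDerivWithinAt
  have hinj : InjOn (fun u : ℝ => e₃ + u ^ 2) (Ioi 0) := fun u hu v hv h =>
    (pow_left_inj₀ (mem_Ioi.mp hu).le (mem_Ioi.mp hv).le two_ne_zero).mp (add_left_cancel h)
  have himg : (fun u : ℝ => e₃ + u ^ 2) '' Ioi 0 = Ioi e₃ := by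
    refine Subset.antisymm ?_ fun x hx => ⟨√(x - e₃), Real.sqrt_pos.mpr (sub_pos.mpr hx), ?_⟩
    · rintro _ ⟨u, hu, rfl⟩
      show e₃ < e₃ + u ^ 2
      linarith [pow_pos (mem_Ioi.mp hu) 2]
    · show e₃ + √(x - e₃) ^ 2 = x
      rw [Real.sq_sqrt (sub_pos.mpr hx).le, add_sub_cancel]
  have h := integral_image_eq_integral_abs_deriv_smul measurableSet_Ioi hder hinj
    (fun x => (√(4 * ((x - e₁) * (x - e₂) * (x - e₃))))⁻¹)
  rw [himg] at h
  rw [h, gaussIntegral]
  refine setIntegral_congr_fun measurableSet_Ioi fun u hu => ?_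
  have hu' : (0 : ℝ) < u := hu
  simp only [gaussIntegrand, smul_eq_mul]
  rw [Real.sq_sqrt (by linarith), Real.sq_sqrt (by linarith),
    show 4 * ((e₃ + u ^ 2 - e₁) * (e₃ + u ^ 2 - e₂) * (e₃ + u ^ 2 - e₃)) =
      (2 * u) ^ 2 * ((u ^ 2 + (e₃ - e₁)) * (u ^ 2 + (e₃ - e₂))) by ring,
    Real.sqrt_mul (sq_nonneg _), Real.sqrt_sq (by linarith), abs_of_pos (by linarith),
    mul_inv, ← mul_assoc, mul_inv_cancel₀ (by positivity), one_mul]

end FA.RealPoints

end
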