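import Fermat.Agent.RealPoints.Density

/-!
# The group of real points of an elliptic curve

The real parameters give an injective map from the circle onto the identity component; outside
it, if anything, lies one coset, represented by a point of order two.
-/

set_option autoImplicit false
set_option linter.style.haveILetI false

noncomputable section

open Complex Filter Topology WeierstrassCurve
open scoped ComplexConjugate

namespace FA.RealPoints

/-- The points of the identity component: beyond the abscissa the cubic is positive. -/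
def OnIdentityComponent {A B : ℝ} (Q : (shortCurve A B).toAffine.Point) : Prop :=
  ∀ x y h, Q = Affine.Point.some x y h → ∀ t > x, 0 < t ^ 3 + A * t + B

/-- Smoothness of the cubic. -/
theorem discriminant_ne_zero (A B : ℝ) [(shortCurve A B).IsElliptic] :
    4 * A ^ 3 + 27 * B ^ 2 ≠ 0 := by
  intro h
  refine (shortCurve A B).isUnit_Δ.ne_zero ?_
  simp only [WeierstrassCurve.Δ, b₂, b₄, b₆, b₈]
  linear_combination (-16 : ℝ) * h

/-- A cubic without a double root which is nowhere negative beyond `x` is positive there. -/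
theorem pos_of_nonneg {A B x : ℝ} (hd : 4 * A ^ 3 + 27 * B ^ 2 ≠ 0)
    (h : ∀ t > x, 0 ≤ t ^ 3 + A * t + B) {t : ℝ} (ht : x < t) : 0 < t ^ 3 + A * t + B := by
  refine lt_of_le_of_ne (h t ht) fun e => hd ?_
  have hmin : IsLocalMin (fun u : ℝ => u ^ 3 + A * u + B) t := by
    filter_upwards [Ioi_mem_nhds ht] with u hu
    simpa [← e] using h u hu
  have hder : HasDerivAt (fun u : ℝ => u ^ 3 + A * u + B) (3 * t ^ 2 + A) t := by
    have h1 := (((hasDerivAt_id t).pow 3).add ((hasDerivAt_id t).const_mul A)).add_const B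
    simpa using h1
  have hA : A = -(3 * t ^ 2) := by linarith [hmin.hasDerivAt_eq_zero hder]
  have hB : B = 2 * t ^ 3 := by rw [hA] at e; linarith [e]
  rw [hA, hB]
  ring

variable (L : PeriodPair) {a b : ℝ} (h₂ : L.g₂ = a) (h₃ : L.g₃ = b)

include h₂ h₃ in
/-- Beyond the value at a real parameter the cubic is positive. -/
theorem cubic_pos_of_param {ω : ℝ} (hω : 0 < ω)
    (hper : ∀ s : ℝ, (s : ℂ) ∈ L.lattice ↔ ∃ m : ℤ, s = m * ω) {X₀ : ℝ}
    (hX₀ : ∀ t ≥ X₀, 0 < 4 * t ^ 3 - a * t - b) {s : ℝ} (hs : (s : ℂ) ∉ L.lattice) {t : ℝ}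
    (ht : (L.weierstrassP s).re < t) : 0 ≤ 4 * t ^ 3 - a * t - b := by
  by_contra hneg
  push Not at hneg
  have htX : t < X₀ := by
    by_contra h
    exact absurd (hX₀ t (not_lt.mp h)) (not_lt.mpr hneg.le)
  -- a parameter of `X₀`
  obtain ⟨s₁, hs₁, hX, -⟩ := exists_real_param L h₂ h₃ hω hper (x := X₀)
    (y := √(4 * X₀ ^ 3 - a * X₀ - b)) (Real.sq_sqrt (hX₀ X₀ le_rfl).le)
    (fun u hu => hX₀ u hu.le)
  have hred : ∀ u : ℝ, (u : ℂ) ∉ L.lattice → ∃ v ∈ Set.Ioo 0 ω,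
      L.weierstrassP v = L.weierstrassP u := by
    intro u hu
    have hl : ((-(⌊u / ω⌋ : ℝ) * ω : ℝ) : ℂ) ∈ L.lattice :=
      (hper _).mpr ⟨-⌊u / ω⌋, by push_cast; ring⟩
    refine ⟨u + -(⌊u / ω⌋ : ℝ) * ω, ⟨?_, ?_⟩, ?_⟩
    · have h1 := Int.floor_le (u / ω)
      rw [le_div_iff₀ hω] at h1
      rcases h1.eq_or_lt with e | h1
      · exact absurd ((hper u).mpr ⟨⌊u / ω⌋, e.symm⟩) hu
      · linarith
    · have h1 := Int.lt_floor_add_one (u / ω)
      rw [div_lt_iff₀ hω] at h1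
      linarith
    · rw [ofReal_add, (FA.Mazur.Wp.wp_sub_coe L hl).1]
  obtain ⟨v, hv, ev⟩ := hred s hs
  obtain ⟨v₁, hv₁, ev₁⟩ := hred s₁ hs₁
  have hoff : ∀ w ∈ Set.uIcc v v₁, (w : ℂ) ∉ L.lattice := by
    intro w hw hwl
    obtain ⟨m, hm⟩ := (hper w).mp hwl
    have h1 : 0 < w ∧ w < ω :=
      ⟨(lt_min hv.1 hv₁.1).trans_le hw.1, hw.2.trans_lt (max_lt hv.2 hv₁.2)⟩
    have h2 : (0 : ℝ) < m := (mul_pos_iff_of_pos_right hω).mp (hm ▸ h1.1)
    have h3 : (m : ℝ) < 1 := (mul_lt_iff_lt_one_left hω).mp (hm ▸ h1.2)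
    have h4 : (0 : ℤ) < m := by exact_mod_cast h2
    have h5 : m < 1 := by exact_mod_cast h3
    omega
  have hcont : ContinuousOn (fun w : ℝ => (L.weierstrassP w).re) (Set.uIcc v v₁) := fun w hw =>
    (Complex.continuous_re.continuousAt.comp ((L.analyticOnNhd_weierstrassP _
      (hoff w hw)).continuousAt.comp Complex.continuous_ofReal.continuousAt)).continuousWithinAt
  obtain ⟨w, hw, hwt⟩ := intermediate_value_uIcc hcont
    (show t ∈ Set.uIcc ((L.weierstrassP v).re) ((L.weierstrassP v₁).re) by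
      rw [ev, ev₁, hX, ofReal_re]
      exact Set.mem_uIcc_of_le ht.le htX.le)
  have hsq := congrArg Complex.re (L.derivWeierstrassP_sq _ (hoff w hw))
  obtain ⟨e1, e2⟩ := wp_ofReal L h₂ h₃ w
  have hwt' : (L.weierstrassP w).re = t := hwt
  rw [← e1, ← e2, h₂, h₃, hwt'] at hsq
  norm_cast at hsq
  nlinarith [sq_nonneg (L.derivWeierstrassP w).re]

/-- The doubled imaginary parts of conjugation-invariant parameters form a cyclic group. -/
theorem exists_imag_generator :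
    ∃ c₀ : ℝ, ∀ c : ℝ, ((2 * c : ℝ) : ℂ) * I ∈ L.lattice ↔ ∃ k : ℤ, c = k * c₀ := by
  set S : AddSubgroup ℝ := L.lattice.toAddSubgroup.comap
    ((AddMonoidHom.mulRight (2 * I)).comp Complex.ofRealHom.toAddMonoidHom)
  have hmem : ∀ c : ℝ, c ∈ S ↔ ((2 * c : ℝ) : ℂ) * I ∈ L.lattice := fun c => by
    show (c : ℂ) * (2 * I) ∈ L.lattice ↔ _
    rw [show (c : ℂ) * (2 * I) = ((2 * c : ℝ) : ℂ) * I by push_cast; ring]
  rcases S.dense_or_cyclic with hd | ⟨c, hc⟩
  · exfalso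
    have hS : IsClosed (S : Set ℝ) := L.isClosed_lattice.preimage (by
      show Continuous fun c : ℝ => (c : ℂ) * (2 * I)
      fun_prop)
    have hall : ∀ c : ℝ, (c : ℂ) * (2 * I) ∈ L.lattice := fun c => by
      have : c ∈ closure (S : Set ℝ) := hd c
      rwa [hS.closure_eq] at this
    have hcnt : (Set.range fun c : ℝ => (c : ℂ) * (2 * I)).Countable :=
      (Set.countable_range (fun l : L.lattice => (l : ℂ))).mono
        (by rintro _ ⟨c, rfl⟩; exact ⟨⟨_, hall c⟩, rfl⟩)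
    have hinj : Function.Injective fun c : ℝ => (c : ℂ) * (2 * I) := fun u v h =>
      Complex.ofReal_injective (mul_right_cancel₀ (by simp) h)
    exact Cardinal.not_countable_real (by simpa using hcnt.preimage hinj)
  · refine ⟨c, fun v => ?_⟩
    rw [← hmem, hc, AddSubgroup.mem_closure_singleton]
    simp [zsmul_eq_mul, eq_comm]

/-- **The circle of the identity component and its complement.** -/
theorem exists_circleHom (A B : ℝ) [(shortCurve A B).IsElliptic] :
    ∃ φ : AddCircle (1 : ℝ) →+ (shortCurve A B).toAffine.Point, Function.Injective φ ∧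
      (∀ Q, Q ∈ φ.range ↔ OnIdentityComponent Q) ∧
      (∀ Q, Q ∉ φ.range → ∃ ε, ε ∉ φ.range ∧ 2 • ε = 0 ∧
        ∀ R, R ∉ φ.range → R - ε ∈ φ.range) := by
  obtain ⟨L, ι, h₂, h₃, hιinj, hιsome⟩ := exists_lattice_hom A B
  obtain ⟨ω, hω, hper⟩ := exists_real_period L h₂ h₃
  -- invariant parameters give real points
  have hreal : ∀ z : ℂ, z - conj z ∈ L.lattice → ∃ Q, ι Q = FA.Mazur.Wp.unif L z := by
    intro z hz
    by_cases hzl : z ∈ L.lattice
    · exact ⟨0, by rw [map_zero, FA.Mazur.Wp.unif_of_mem L hzl]⟩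
    have h := wp_conj L h₂ h₃ z
    rw [show conj z = z + -(z - conj z) by ring, (FA.Mazur.Wp.wp_sub_coe L (neg_mem hz)).1,
      (FA.Mazur.Wp.wp_sub_coe L (neg_mem hz)).2] at h
    have e1 := Complex.conj_eq_iff_re.mp h.1.symm
    have e2 := Complex.conj_eq_iff_re.mp h.2.symm
    have hns : (shortCurve A B).toAffine.Nonsingular (L.weierstrassP z).re
        ((L.derivWeierstrassP z).re / 2) := by
      refine Affine.equation_iff_nonsingular.mp ((Affine.equation_iff _ _).mpr ?_)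
      have hsq := L.derivWeierstrassP_sq z hzl
      rw [h₂, h₃, ← e1, ← e2] at hsq
      push_cast at hsq
      simp only [zero_mul, add_zero]
      apply Complex.ofReal_injective
      push_cast
      linear_combination (1 / 4 : ℂ) * hsq
    obtain ⟨h', e⟩ := hιsome _ _ hns
    refine ⟨.some _ _ hns, ?_⟩
    rw [e, FA.Mazur.Wp.unif_of_notMem L hzl, Affine.Point.some.injEq]
    exact ⟨e1, by rw [ofReal_div, e2, ofReal_ofNat]⟩
  choose! pre hpre using hreal
  have hinv : ∀ s : ℝ, (s : ℂ) - conj (s : ℂ) ∈ L.lattice := fun s => by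
    rw [conj_ofReal, sub_self]; exact zero_mem _
  let ψ : ℝ →+ (shortCurve A B).toAffine.Point := AddMonoidHom.mk' (fun s => pre s) fun s t =>
    hιinj (by
      rw [map_add, hpre _ (hinv _), hpre _ (hinv _), hpre _ (hinv _), ofReal_add,
        FA.Mazur.Wp.unif_add])
  have hψ : ∀ s, ι (ψ s) = FA.Mazur.Wp.unif L (s : ℂ) := fun s => hpre _ (hinv s)
  have hker : ∀ s, ψ s = 0 ↔ ∃ m : ℤ, s = m * ω := fun s => by
    rw [← map_eq_zero_iff ι hιinj, hψ, FA.Mazur.Wp.unif_eq_zero_iff, hper]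
  let φω : AddCircle ω →+ (shortCurve A B).toAffine.Point := QuotientAddGroup.lift _ ψ
    fun s hs => by
      obtain ⟨m, rfl⟩ := AddSubgroup.mem_zmultiples_iff.mp hs
      exact (hker _).mpr ⟨m, zsmul_eq_mul _ _⟩
  have hφωinj : Function.Injective φω := by
    refine (injective_iff_map_eq_zero φω).mpr fun x => ?_
    induction x using QuotientAddGroup.induction_on with
    | _ s =>
      intro h
      obtain ⟨m, rfl⟩ := (hker s).mp h
      exact (AddCircle.coe_eq_zero_iff ω).mpr ⟨m, zsmul_eq_mul _ _⟩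
  set φ := φω.comp (AddCircle.equivAddCircle (1 : ℝ) ω one_ne_zero hω.ne').toAddMonoidHom
  have hrange : ∀ Q, Q ∈ φ.range ↔ ∃ s : ℝ, ψ s = Q := by
    intro Q
    constructor
    · rintro ⟨x, rfl⟩
      obtain ⟨s, hs⟩ := QuotientAddGroup.mk_surjective
        (AddCircle.equivAddCircle (1 : ℝ) ω one_ne_zero hω.ne' x)
      exact ⟨s, by simp only [φ, AddMonoidHom.comp_apply, AddEquiv.coe_toAddMonoidHom, ← hs]; rfl⟩
    · rintro ⟨s, rfl⟩
      exact ⟨(AddCircle.equivAddCircle (1 : ℝ) ω one_ne_zero hω.ne').symm (s : AddCircle ω), by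
        simp only [φ, AddMonoidHom.comp_apply, AddEquiv.coe_toAddMonoidHom,
          AddEquiv.apply_symm_apply]; rfl⟩
  have hd := discriminant_ne_zero A B
  have hcomp : ∀ Q, Q ∈ φ.range ↔ OnIdentityComponent Q := by
    intro Q
    rw [hrange]
    constructor
    · rintro ⟨s, rfl⟩ x y h e
      obtain ⟨h', e'⟩ := hιsome x y h
      have hu := (hψ s).symm.trans ((congrArg ι e).trans e')
      have hs : (s : ℂ) ∉ L.lattice := fun hs => Affine.Point.some_ne_zero h'
        (hu.symm.trans (FA.Mazur.Wp.unif_of_mem L hs))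
      rw [FA.Mazur.Wp.unif_of_notMem L hs, Affine.Point.some.injEq] at hu
      intro t ht
      obtain ⟨X₀, hX₀⟩ : ∃ X₀ : ℝ, ∀ u ≥ X₀, 0 < 4 * u ^ 3 - (-4 * A) * u - (-4 * B) := by
        refine ⟨|A| + |B| + 2, fun u hu => ?_⟩
        have h2 : 1 ≤ u := by linarith [abs_nonneg A, abs_nonneg B]
        have h3 : (|A| + |B| + 2) * u ≤ u ^ 2 := by
          rw [pow_two]; exact mul_le_mul_of_nonneg_right hu (by linarith)
        have h4 : u ^ 2 * 1 ≤ u ^ 3 := by
          rw [pow_succ u 2]; exact mul_le_mul_of_nonneg_left h2 (sq_nonneg u)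
        nlinarith [neg_abs_le A, neg_abs_le B, abs_nonneg A, abs_nonneg B]
      refine pos_of_nonneg hd (fun v hv => ?_) ht
      have := cubic_pos_of_param L h₂ h₃ hω hper hX₀ hs (t := v) (by rwa [hu.1, ofReal_re])
      linarith
    · intro hQ
      cases Q with
      | zero => exact ⟨0, map_zero ψ⟩
      | some x y h =>
        have he := (Affine.equation_iff x y).mp h.1
        simp only [zero_mul, add_zero] at he
        obtain ⟨s, hs, hx, hy⟩ := exists_real_param L h₂ h₃ hω hper (x := x) (y := 2 * y)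
          (by linear_combination 4 * he) (fun t ht => by linarith [hQ x y h rfl t ht])
        refine ⟨s, hιinj ?_⟩
        obtain ⟨h', e⟩ := hιsome x y h
        rw [hψ, e, FA.Mazur.Wp.unif_of_notMem L hs, Affine.Point.some.injEq]
        exact ⟨hx, by rw [hy]; push_cast; ring⟩
  obtain ⟨c₀, hc₀⟩ := exists_imag_generator L
  -- every point is `s + k c₀ i`
  have hparam : ∀ Q, ∃ (s : ℝ) (k : ℤ),
      ι Q = FA.Mazur.Wp.unif L ((s : ℂ) + ((k * c₀ : ℝ) : ℂ) * I) := by
    intro Q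
    obtain ⟨z, hz'⟩ := FA.ClassNumberOne.unif_surjective L (ι Q)
    have hz : FA.Mazur.Wp.unif L z = ι Q := hz'
    have h := (FA.Mazur.Wp.unif_eq_unif_iff L).mp (unif_conj_param h₂ h₃ hιsome hz).symm
    rw [Complex.sub_conj] at h
    obtain ⟨k, hk⟩ := (hc₀ z.im).mp (by exact_mod_cast h)
    exact ⟨z.re, k, by rw [← hk, Complex.re_add_im, hz]⟩
  have heven : ∀ j : ℤ, (((2 * j : ℤ) : ℝ) * c₀ : ℝ) * I ∈ L.lattice := fun j => by
    have := (hc₀ (j * c₀)).mpr ⟨j, rfl⟩
    rwa [show ((((2 * j : ℤ) : ℝ) * c₀ : ℝ) : ℂ) * I = ((2 * (j * c₀) : ℝ) : ℂ) * I by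
      push_cast; ring]
  have hclass : ∀ Q, Q ∉ φ.range → ∀ (s : ℝ) (k : ℤ),
      ι Q = FA.Mazur.Wp.unif L ((s : ℂ) + ((k * c₀ : ℝ) : ℂ) * I) → ¬ 2 ∣ k := by
    rintro Q hQ s k hk ⟨j, rfl⟩
    refine hQ ((hrange Q).mpr ⟨s, hιinj ?_⟩)
    rw [hψ, hk, FA.Mazur.Wp.unif_add_mem L (heven j)]
  refine ⟨φ, hφωinj.comp (AddEquiv.injective _), hcomp, fun Q hQ => ?_⟩
  obtain ⟨s, k, hk⟩ := hparam Q
  have hk2 := hclass Q hQ s k hk
  have hinvε : ((c₀ : ℂ) * I) - conj ((c₀ : ℂ) * I) ∈ L.lattice := by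
    have := (hc₀ c₀).mpr ⟨1, by simp⟩
    rwa [show ((c₀ : ℂ) * I) - conj ((c₀ : ℂ) * I) = ((2 * c₀ : ℝ) : ℂ) * I by
      rw [map_mul, conj_ofReal, conj_I]; push_cast; ring]
  set ε := pre ((c₀ : ℂ) * I)
  have hε : ι ε = FA.Mazur.Wp.unif L ((c₀ : ℂ) * I) := hpre _ hinvε
  have hdiff : ∀ R, R ∉ φ.range → R - ε ∈ φ.range := by
    intro R hR
    obtain ⟨u, l, hl⟩ := hparam R
    have hl2 := hclass R hR u l hl
    obtain ⟨j, hj⟩ : 2 ∣ l - 1 := by omega
    refine (hrange _).mpr ⟨u, hιinj ?_⟩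
    rw [hψ, map_sub, hl, hε, eq_sub_iff_add_eq, ← FA.Mazur.Wp.unif_add,
      FA.Mazur.Wp.unif_eq_unif_iff]
    have := neg_mem (heven j)
    rwa [show (u : ℂ) + (c₀ : ℂ) * I - ((u : ℂ) + ((l * c₀ : ℝ) : ℂ) * I) =
      -(((((2 * j : ℤ) : ℝ) * c₀ : ℝ) : ℂ) * I) by
        rw [← hj]; push_cast; ring]
  refine ⟨ε, fun hmem => hQ ?_, ?_, hdiff⟩
  · have := add_mem (hdiff Q hQ) hmem
    rwa [sub_add_cancel] at this
  · refine hιinj ?_
    rw [map_nsmul, hε, map_zero, two_nsmul, ← FA.Mazur.Wp.unif_add]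
    refine FA.Mazur.Wp.unif_of_mem L ?_
    have := heven 1
    rwa [show (c₀ : ℂ) * I + (c₀ : ℂ) * I = ((((2 * 1 : ℤ) : ℝ) * c₀ : ℝ) : ℂ) * I by
      push_cast; ring]

end FA.RealPoints

end
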